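/-
MW / heights — GAUSS–MAHLER ON THE PROJECTIVE LINE, elementary, for ANY absolute value
(Mathlib only).

For a multiset `s` of elements of a field `K` let `rootPoly s = ∏_{r ∈ s} (X - r)`.  For every
absolute value `v : AbsoluteValue K ℝ` the size of the coefficient vector of `rootPoly s` is
comparable with `∏_{r ∈ s} max 1 (v r)`:

* `coeff_rootPoly_le` : `v (coeff) ≤ κ ^ card s * ∏ max 1 (v r)`;
* `gelfond`, `exists_coeff_ge` : `∏ max 1 (v r) ≤ κ ^ (card s ^ 2) * v (some coefficient)`;

where `κ` is any constant with `v (a + b) ≤ κ * max (v a) (v b)` (`κ = 2` always, `κ = 1` for an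
ultrametric `v`: then both are Gauss's lemma, with equality).  No complex embedding and no Mahler
measure is used: one linear factor is divided out at a time.

For a family `abv : V → AbsoluteValue K ℝ` with finitely many non-ultrametric members and
`v c ≤ 1` for almost all `v`:

* `abs_finsum_log_iSup_coeff_sub_le` : the logarithmic size of the coefficient vector of
  `rootPoly s`, summed over the family, equals the sum over `r ∈ s` of the sums of
  `log max 1 (abv v r)`, up to a constant depending only on a bound for `card s`.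
-/
import Mathlib

set_option autoImplicit false

namespace Fermat.Agent.MW.Height.GaussMahler

open Polynomial

variable {K : Type*} [Field K]

/-! ### The polynomial with a given multiset of roots -/

/-- The monic polynomial with the given multiset of roots. -/
noncomputable def rootPoly (s : Multiset K) : K[X] := (s.map fun r => X - C r).prod

@[simp] theorem rootPoly_zero : rootPoly (0 : Multiset K) = 1 := by simp [rootPoly]

@[simp] theorem rootPoly_cons (r : K) (s : Multiset K) :
    rootPoly (r ::ₘ s) = (X - C r) * rootPoly s := by simp [rootPoly]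

theorem rootPoly_add (s t : Multiset K) : rootPoly (s + t) = rootPoly s * rootPoly t := by
  simp [rootPoly]

theorem monic_rootPoly (s : Multiset K) : (rootPoly s).Monic :=
  monic_multiset_prod_of_monic _ _ fun r _ => monic_X_sub_C r

theorem natDegree_rootPoly (s : Multiset K) : (rootPoly s).natDegree = Multiset.card s :=
  natDegree_multiset_prod_X_sub_C_eq_card s

theorem rootPoly_ne_zero (s : Multiset K) : rootPoly s ≠ 0 := (monic_rootPoly s).ne_zero

theorem roots_rootPoly (s : Multiset K) : (rootPoly s).roots = s :=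
  roots_multiset_prod_X_sub_C s

theorem coeff_card_rootPoly (s : Multiset K) : (rootPoly s).coeff (Multiset.card s) = 1 := by
  have h := (monic_rootPoly s).coeff_natDegree
  rwa [natDegree_rootPoly] at h

theorem coeff_rootPoly_of_lt (s : Multiset K) {k : ℕ} (hk : Multiset.card s < k) :
    (rootPoly s).coeff k = 0 :=
  coeff_eq_zero_of_natDegree_lt (by rwa [natDegree_rootPoly])

theorem map_rootPoly {L : Type*} [Field L] (f : K →+* L) (s : Multiset K) :
    (rootPoly s).map f = rootPoly (s.map f) := by
  induction s using Multiset.induction_on with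
  | empty => simp
  | cons r s ih => simp [ih]

/-- Over an algebraically closed field every polynomial is its leading coefficient times the
`rootPoly` of its roots. -/
theorem eq_C_mul_rootPoly [IsAlgClosed K] (P : K[X]) :
    P = C P.leadingCoeff * rootPoly P.roots := by
  have h := (IsAlgClosed.splits P).eq_prod_roots
  exact h

/-! ### One linear factor -/

theorem coeff_X_sub_C_mul_zero (r : K) (Q : K[X]) :
    ((X - C r) * Q).coeff 0 = -(r * Q.coeff 0) := by
  simp [sub_mul]

theorem coeff_X_sub_C_mul_succ (r : K) (Q : K[X]) (k : ℕ) :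
    ((X - C r) * Q).coeff (k + 1) = Q.coeff k - r * Q.coeff (k + 1) := by
  simp [sub_mul]

section Local

variable (v : AbsoluteValue K ℝ) {κ : ℝ}

theorem one_le_prod_max (s : Multiset K) : 1 ≤ (s.map fun r => max 1 (v r)).prod := by
  induction s using Multiset.induction_on with
  | empty => simp
  | cons r s ih =>
    rw [Multiset.map_cons, Multiset.prod_cons]
    exact one_le_mul_of_one_le_of_one_le (le_max_left _ _) ih

theorem prod_max_pos (s : Multiset K) : 0 < (s.map fun r => max 1 (v r)).prod :=
  lt_of_lt_of_le one_pos (one_le_prod_max v s)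

/-- Multiplying by a linear factor: upper bound for the coefficients. -/
theorem coeff_X_sub_C_mul_le (hκ : 1 ≤ κ) (hadd : ∀ a b, v (a + b) ≤ κ * max (v a) (v b))
    (r : K) (Q : K[X]) {B : ℝ} (hB : ∀ k, v (Q.coeff k) ≤ B) (k : ℕ) :
    v (((X - C r) * Q).coeff k) ≤ κ * (max 1 (v r) * B) := by
  have hB0 : 0 ≤ B := (v.nonneg _).trans (hB 0)
  have hm : (0 : ℝ) ≤ max 1 (v r) := le_trans zero_le_one (le_max_left _ _)
  cases k with
  | zero =>
    rw [coeff_X_sub_C_mul_zero, v.map_neg, v.map_mul]
    calc v r * v (Q.coeff 0) ≤ max 1 (v r) * B :=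
          mul_le_mul (le_max_right _ _) (hB 0) (v.nonneg _) hm
      _ ≤ κ * (max 1 (v r) * B) := le_mul_of_one_le_left (mul_nonneg hm hB0) hκ
  | succ k =>
    rw [coeff_X_sub_C_mul_succ, sub_eq_add_neg]
    refine (hadd _ _).trans ?_
    refine mul_le_mul_of_nonneg_left ?_ (le_trans zero_le_one hκ)
    refine max_le ?_ ?_
    · calc v (Q.coeff k) ≤ B := hB k
        _ ≤ max 1 (v r) * B := le_mul_of_one_le_left hB0 (le_max_left _ _)
    · rw [v.map_neg, v.map_mul]
      exact mul_le_mul (le_max_right _ _) (hB _) (v.nonneg _) hm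

/-- **Upper bound**: the coefficients of `∏ (X - r)` are bounded by `κ ^ card * ∏ max 1 |r|`. -/
theorem coeff_rootPoly_le (hκ : 1 ≤ κ) (hadd : ∀ a b, v (a + b) ≤ κ * max (v a) (v b))
    (s : Multiset K) (k : ℕ) :
    v ((rootPoly s).coeff k) ≤ κ ^ Multiset.card s * (s.map fun r => max 1 (v r)).prod := by
  induction s using Multiset.induction_on generalizing k with
  | empty =>
    simp only [rootPoly_zero, Multiset.card_zero, pow_zero, Multiset.map_zero,
      Multiset.prod_zero, mul_one, coeff_one]
    split_ifs <;> simp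
  | cons r s ih =>
    rw [rootPoly_cons, Multiset.card_cons, Multiset.map_cons, Multiset.prod_cons]
    refine (coeff_X_sub_C_mul_le v hκ hadd r (rootPoly s) (fun k => ih k) k).trans (le_of_eq ?_)
    ring

/-- Dividing by a linear factor: if the coefficients of `(X - r) * Q` are bounded by `B`, then
those of `Q` are bounded by `κ ^ (m + 1) * B / max 1 |r|` (`deg Q ≤ m`). -/
theorem max_mul_coeff_le (hκ : 1 ≤ κ) (hadd : ∀ a b, v (a + b) ≤ κ * max (v a) (v b))
    (r : K) (Q : K[X]) {m : ℕ} (hQ : Q.natDegree ≤ m) {B : ℝ}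
    (hB : ∀ k, v (((X - C r) * Q).coeff k) ≤ B) (j : ℕ) :
    max 1 (v r) * v (Q.coeff j) ≤ κ ^ (m + 1) * B := by
  have hB0 : 0 ≤ B := (v.nonneg _).trans (hB 0)
  have hκ0 : 0 ≤ κ := zero_le_one.trans hκ
  have hpow : ∀ d, d ≤ m + 1 → κ ^ d * B ≤ κ ^ (m + 1) * B := fun d hd =>
    mul_le_mul_of_nonneg_right (pow_le_pow_right₀ hκ hd) hB0
  rcases le_or_gt (v r) 1 with hr | hr
  · rw [max_eq_left hr, one_mul]
    have key : ∀ d j, j + d = m + 1 → v (Q.coeff j) ≤ κ ^ d * B := by
      intro d
      induction d with
      | zero =>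
        intro j hj
        rw [coeff_eq_zero_of_natDegree_lt (by omega), map_zero]
        simpa using hB0
      | succ d ih =>
        intro j hj
        have h1 := ih (j + 1) (by omega)
        have h2 : Q.coeff j = ((X - C r) * Q).coeff (j + 1) + r * Q.coeff (j + 1) := by
          rw [coeff_X_sub_C_mul_succ]; ring
        rw [h2]
        refine (hadd _ _).trans ?_
        rw [pow_succ', mul_assoc]
        refine mul_le_mul_of_nonneg_left (max_le ?_ ?_) hκ0
        · exact (hB _).trans (le_mul_of_one_le_left hB0 (one_le_pow₀ hκ))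
        · rw [v.map_mul]
          calc v r * v (Q.coeff (j + 1)) ≤ 1 * (κ ^ d * B) :=
                mul_le_mul hr h1 (v.nonneg _) zero_le_one
            _ = κ ^ d * B := one_mul _
    rcases le_or_gt j m with hj | hj
    · exact (key (m + 1 - j) j (by omega)).trans (hpow _ (by omega))
    · rw [coeff_eq_zero_of_natDegree_lt (by omega), map_zero]
      exact mul_nonneg (pow_nonneg hκ0 _) hB0
  · rw [max_eq_right hr.le]
    have key : ∀ j, v r * v (Q.coeff j) ≤ κ ^ (j + 1) * B := by
      intro j
      induction j with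
      | zero =>
        have h1 := hB 0
        rw [coeff_X_sub_C_mul_zero, v.map_neg, v.map_mul] at h1
        exact h1.trans (by simpa using le_mul_of_one_le_left hB0 hκ)
      | succ j ih =>
        have h2 : r * Q.coeff (j + 1) = Q.coeff j + -((X - C r) * Q).coeff (j + 1) := by
          rw [coeff_X_sub_C_mul_succ]; ring
        rw [← v.map_mul, h2]
        refine (hadd _ _).trans ?_
        rw [pow_succ', mul_assoc]
        refine mul_le_mul_of_nonneg_left (max_le ?_ ?_) hκ0
        · calc v (Q.coeff j) ≤ v r * v (Q.coeff j) :=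
                le_mul_of_one_le_left (v.nonneg _) hr.le
            _ ≤ κ ^ (j + 1) * B := ih
        · rw [v.map_neg]
          exact (hB _).trans (le_mul_of_one_le_left hB0 (one_le_pow₀ hκ))
    rcases le_or_gt j m with hj | hj
    · exact (key j).trans (hpow _ (by omega))
    · rw [coeff_eq_zero_of_natDegree_lt (by omega), map_zero, mul_zero]
      exact mul_nonneg (pow_nonneg hκ0 _) hB0

/-- **Gelfond-type lower bound**: if all coefficients of `rootPoly s * Q` are bounded by `B`,
then `∏ max 1 |r|` times any coefficient of `Q` is bounded by a constant times `B`. -/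
theorem gelfond (hκ : 1 ≤ κ) (hadd : ∀ a b, v (a + b) ≤ κ * max (v a) (v b))
    (s : Multiset K) : ∀ (m : ℕ) (Q : K[X]), Q.natDegree ≤ m → ∀ B : ℝ,
      (∀ k, v ((rootPoly s * Q).coeff k) ≤ B) → ∀ j,
      (s.map fun r => max 1 (v r)).prod * v (Q.coeff j)
        ≤ κ ^ (Multiset.card s * (m + Multiset.card s)) * B := by
  induction s using Multiset.induction_on with
  | empty =>
    intro m Q _ B hB j
    simpa using hB j
  | cons r s ih =>
    intro m Q hQ B hB j
    have hB0 : 0 ≤ B := (v.nonneg _).trans (hB 0)
    have hP0 : 0 < (s.map fun r => max 1 (v r)).prod := prod_max_pos v s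
    have hQ' : ((X - C r) * Q).natDegree ≤ m + 1 := by
      refine natDegree_mul_le.trans ?_
      rw [natDegree_X_sub_C]; omega
    have h1 : ∀ i, v (((X - C r) * Q).coeff i)
        ≤ κ ^ (Multiset.card s * (m + 1 + Multiset.card s)) * B
          / (s.map fun r => max 1 (v r)).prod := by
      intro i
      rw [le_div_iff₀ hP0, mul_comm]
      refine ih (m + 1) _ hQ' B (fun k => ?_) i
      have h3 : rootPoly s * ((X - C r) * Q) = rootPoly (r ::ₘ s) * Q := by
        rw [rootPoly_cons]; ring
      rw [h3]; exact hB k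
    have h2 := max_mul_coeff_le v hκ hadd r Q hQ h1 j
    rw [Multiset.map_cons, Multiset.prod_cons, Multiset.card_cons]
    have h4 : max 1 (v r) * (s.map fun r => max 1 (v r)).prod * v (Q.coeff j)
        ≤ κ ^ (m + 1 + Multiset.card s * (m + 1 + Multiset.card s)) * B := by
      calc max 1 (v r) * (s.map fun r => max 1 (v r)).prod * v (Q.coeff j)
          = (s.map fun r => max 1 (v r)).prod * (max 1 (v r) * v (Q.coeff j)) := by ring
        _ ≤ (s.map fun r => max 1 (v r)).prod *
              (κ ^ (m + 1) * (κ ^ (Multiset.card s * (m + 1 + Multiset.card s)) * B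
                / (s.map fun r => max 1 (v r)).prod)) :=
            mul_le_mul_of_nonneg_left h2 hP0.le
        _ = κ ^ (m + 1 + Multiset.card s * (m + 1 + Multiset.card s)) * B := by
            rw [pow_add (n := Multiset.card s * (m + 1 + Multiset.card s))]
            field_simp
    refine h4.trans (mul_le_mul_of_nonneg_right (pow_le_pow_right₀ hκ ?_) hB0)
    have h5 : (Multiset.card s + 1) * (m + (Multiset.card s + 1))
        = m + 1 + Multiset.card s * (m + 1 + Multiset.card s) + Multiset.card s := by ring
    omega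

/-- **Lower bound**: some coefficient of `∏ (X - r)` is at least `∏ max 1 |r|` up to the
constant `κ ^ (card ^ 2)`. -/
theorem exists_coeff_ge (hκ : 1 ≤ κ) (hadd : ∀ a b, v (a + b) ≤ κ * max (v a) (v b))
    (s : Multiset K) :
    ∃ k ≤ Multiset.card s, (s.map fun r => max 1 (v r)).prod
      ≤ κ ^ (Multiset.card s ^ 2) * v ((rootPoly s).coeff k) := by
  obtain ⟨k, hk, hmax⟩ := Finset.exists_max_image (Finset.range (Multiset.card s + 1))
    (fun k => v ((rootPoly s).coeff k)) ⟨0, by simp⟩
  refine ⟨k, Nat.lt_succ_iff.mp (Finset.mem_range.mp hk), ?_⟩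
  have hB : ∀ i, v ((rootPoly s * 1).coeff i) ≤ v ((rootPoly s).coeff k) := by
    intro i
    rw [mul_one]
    rcases le_or_gt i (Multiset.card s) with hi | hi
    · exact hmax i (Finset.mem_range.mpr (Nat.lt_succ_iff.mpr hi))
    · rw [coeff_rootPoly_of_lt s hi, map_zero]; exact v.nonneg _
  have h := gelfond v hκ hadd s 0 1 (by simp) _ hB 0
  simpa [sq] using h

/-! ### The standard constants -/

open Classical in
/-- The ultrametric constant of an absolute value: `1` if it is non-archimedean, `2` otherwise. -/
noncomputable def kp (v : AbsoluteValue K ℝ) : ℝ := if IsNonarchimedean v then 1 else 2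

theorem one_le_kp : 1 ≤ kp v := by
  unfold kp; split_ifs <;> norm_num

theorem kp_le_two : kp v ≤ 2 := by
  unfold kp; split_ifs <;> norm_num

theorem kp_pos : 0 < kp v := lt_of_lt_of_le one_pos (one_le_kp v)

theorem kp_of_nonarch {v : AbsoluteValue K ℝ} (hv : IsNonarchimedean v) : kp v = 1 := by
  unfold kp; rw [if_pos hv]

theorem add_le_kp (a b : K) : v (a + b) ≤ kp v * max (v a) (v b) := by
  classical
  unfold kp
  split_ifs with h
  · rw [one_mul]; exact h a b
  · calc v (a + b) ≤ v a + v b := v.add_le a b
      _ ≤ max (v a) (v b) + max (v a) (v b) := add_le_add (le_max_left _ _) (le_max_right _ _)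
      _ = 2 * max (v a) (v b) := by ring

theorem coeff_rootPoly_le_kp (s : Multiset K) (k : ℕ) :
    v ((rootPoly s).coeff k) ≤ kp v ^ Multiset.card s * (s.map fun r => max 1 (v r)).prod :=
  coeff_rootPoly_le v (one_le_kp v) (add_le_kp v) s k

theorem exists_coeff_ge_kp (s : Multiset K) :
    ∃ k ≤ Multiset.card s, (s.map fun r => max 1 (v r)).prod
      ≤ kp v ^ (Multiset.card s ^ 2) * v ((rootPoly s).coeff k) :=
  exists_coeff_ge v (one_le_kp v) (add_le_kp v) s

/-- Gauss's lemma, upper half: for an ultrametric absolute value the coefficients of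
`∏ (X - r)` are bounded by `∏ max 1 |r|`. -/
theorem coeff_rootPoly_le_of_nonarch (hv : IsNonarchimedean v) (s : Multiset K) (k : ℕ) :
    v ((rootPoly s).coeff k) ≤ (s.map fun r => max 1 (v r)).prod := by
  have h := coeff_rootPoly_le_kp v s k
  rwa [kp_of_nonarch hv, one_pow, one_mul] at h

/-- Gauss's lemma, lower half: for an ultrametric absolute value some coefficient of
`∏ (X - r)` has absolute value `∏ max 1 |r|`. -/
theorem exists_coeff_eq_of_nonarch (hv : IsNonarchimedean v) (s : Multiset K) :
    ∃ k ≤ Multiset.card s, v ((rootPoly s).coeff k) = (s.map fun r => max 1 (v r)).prod := by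
  obtain ⟨k, hk, h⟩ := exists_coeff_ge_kp v s
  rw [kp_of_nonarch hv, one_pow, one_mul] at h
  exact ⟨k, hk, le_antisymm (coeff_rootPoly_le_of_nonarch v hv s k) h⟩

/-! ### Supremum forms -/

theorem iSup_coeff_rootPoly_le (s : Multiset K) (n : ℕ) :
    ⨆ k : Fin (n + 1), v ((rootPoly s).coeff k)
      ≤ kp v ^ Multiset.card s * (s.map fun r => max 1 (v r)).prod :=
  ciSup_le fun k => coeff_rootPoly_le_kp v s k

theorem prod_max_le_iSup_coeff (s : Multiset K) {n : ℕ} (hn : Multiset.card s ≤ n) :
    (s.map fun r => max 1 (v r)).prod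
      ≤ kp v ^ (Multiset.card s ^ 2) * ⨆ k : Fin (n + 1), v ((rootPoly s).coeff k) := by
  obtain ⟨k, hk, h⟩ := exists_coeff_ge_kp v s
  refine h.trans (mul_le_mul_of_nonneg_left ?_ (pow_nonneg (kp_pos v).le _))
  exact le_ciSup (f := fun k : Fin (n + 1) => v ((rootPoly s).coeff k))
    (Set.finite_range _).bddAbove ⟨k, by omega⟩

theorem one_le_iSup_coeff_rootPoly (s : Multiset K) {n : ℕ} (hn : Multiset.card s ≤ n) :
    1 ≤ ⨆ k : Fin (n + 1), v ((rootPoly s).coeff k) := by
  have h := le_ciSup (f := fun k : Fin (n + 1) => v ((rootPoly s).coeff k))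
    (Set.finite_range _).bddAbove ⟨Multiset.card s, by omega⟩
  simpa [coeff_card_rootPoly] using h

/-- Scaling: the size of the coefficient vector of `C c * P`. -/
theorem iSup_coeff_C_mul (c : K) (P : K[X]) (n : ℕ) :
    ⨆ k : Fin (n + 1), v ((C c * P).coeff k) = v c * ⨆ k : Fin (n + 1), v (P.coeff k) := by
  rw [Real.mul_iSup_of_nonneg (v.nonneg c)]
  simp [coeff_C_mul]

/-- The local two-sided bound in logarithmic form. -/
theorem abs_log_iSup_coeff_sub_le (s : Multiset K) {n : ℕ} (hn : Multiset.card s ≤ n) :
    |Real.log (⨆ k : Fin (n + 1), v ((rootPoly s).coeff k))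
        - Real.log ((s.map fun r => max 1 (v r)).prod)|
      ≤ (Multiset.card s : ℝ) ^ 2 * Real.log (kp v) := by
  have hPp := prod_max_pos v s
  have hS : 0 < ⨆ k : Fin (n + 1), v ((rootPoly s).coeff k) :=
    lt_of_lt_of_le one_pos (one_le_iSup_coeff_rootPoly v s hn)
  have hk := kp_pos v
  have hlk : 0 ≤ Real.log (kp v) := Real.log_nonneg (one_le_kp v)
  have h1 : Real.log (⨆ k : Fin (n + 1), v ((rootPoly s).coeff k))
      ≤ (Multiset.card s : ℝ) * Real.log (kp v)
        + Real.log ((s.map fun r => max 1 (v r)).prod) := by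
    have := Real.log_le_log hS (iSup_coeff_rootPoly_le v s n)
    rwa [Real.log_mul (pow_pos hk _).ne' hPp.ne', Real.log_pow] at this
  have h2 : Real.log ((s.map fun r => max 1 (v r)).prod)
      ≤ (Multiset.card s : ℝ) ^ 2 * Real.log (kp v)
        + Real.log (⨆ k : Fin (n + 1), v ((rootPoly s).coeff k)) := by
    have := Real.log_le_log hPp (prod_max_le_iSup_coeff v s hn)
    rw [Real.log_mul (pow_pos hk _).ne' hS.ne', Real.log_pow] at this
    simpa using this
  have h3 : (Multiset.card s : ℝ) * Real.log (kp v)
      ≤ (Multiset.card s : ℝ) ^ 2 * Real.log (kp v) := by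
    refine mul_le_mul_of_nonneg_right ?_ hlk
    have : Multiset.card s ≤ Multiset.card s ^ 2 := Nat.le_self_pow two_ne_zero _
    exact_mod_cast this
  rw [abs_le]
  constructor <;> linarith

theorem log_prod_max (s : Multiset K) :
    Real.log ((s.map fun r => max 1 (v r)).prod)
      = (s.map fun r => Real.log (max 1 (v r))).sum := by
  induction s using Multiset.induction_on with
  | empty => simp
  | cons r s ih =>
    rw [Multiset.map_cons, Multiset.prod_cons, Multiset.map_cons, Multiset.sum_cons, ← ih,
      Real.log_mul (lt_of_lt_of_le one_pos (le_max_left _ _)).ne' (prod_max_pos v s).ne']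

end Local

/-! ### Families of absolute values -/

section Family

variable {V : Type*} (abv : V → AbsoluteValue K ℝ)

theorem finite_kp_ne_one (H0 : {v | ¬ IsNonarchimedean (abv v)}.Finite) :
    {v | kp (abv v) ≠ 1}.Finite := by
  refine H0.subset ?_
  intro v hv hcon
  exact hv (kp_of_nonarch hcon)

theorem hasFiniteSupport_log_max (H1 : ∀ c : K, {v | 1 < abv v c}.Finite) (r : K) :
    (fun v => Real.log (max 1 (abv v r))).HasFiniteSupport := by
  refine (H1 r).subset ?_
  intro v hv
  by_contra hcon
  simp only [Set.mem_ofPred_eq, not_lt] at hcon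
  exact hv (by simp [max_eq_left hcon])

theorem hasFiniteSupport_sum_log_max (H1 : ∀ c : K, {v | 1 < abv v c}.Finite)
    (s : Multiset K) :
    (fun v => (s.map fun r => Real.log (max 1 (abv v r))).sum).HasFiniteSupport := by
  induction s using Multiset.induction_on with
  | empty => simp [Function.HasFiniteSupport]
  | cons r s ih =>
    simp only [Multiset.map_cons, Multiset.sum_cons]
    exact (hasFiniteSupport_log_max abv H1 r).add ih

theorem finsum_sum_log_max (H1 : ∀ c : K, {v | 1 < abv v c}.Finite) (s : Multiset K) :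
    ∑ᶠ v, (s.map fun r => Real.log (max 1 (abv v r))).sum
      = (s.map fun r => ∑ᶠ v, Real.log (max 1 (abv v r))).sum := by
  induction s using Multiset.induction_on with
  | empty => simp
  | cons r s ih =>
    simp only [Multiset.map_cons, Multiset.sum_cons]
    rw [finsum_add_distrib (hasFiniteSupport_log_max abv H1 r)
      (hasFiniteSupport_sum_log_max abv H1 s), ih]

theorem hasFiniteSupport_log_iSup_coeff (H1 : ∀ c : K, {v | 1 < abv v c}.Finite)
    (s : Multiset K) {n : ℕ} (hn : Multiset.card s ≤ n) :
    (fun v => Real.log (⨆ k : Fin (n + 1), abv v ((rootPoly s).coeff k))).HasFiniteSupport := by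
  have hfin : (⋃ k : Fin (n + 1), {v | 1 < abv v ((rootPoly s).coeff k)}).Finite :=
    Set.finite_iUnion fun k => H1 _
  refine hfin.subset ?_
  intro v hv
  by_contra hcon
  simp only [Set.mem_iUnion, Set.mem_ofPred_eq, not_exists, not_lt] at hcon
  have h1 : ⨆ k : Fin (n + 1), abv v ((rootPoly s).coeff k) ≤ 1 := ciSup_le hcon
  have h2 := one_le_iSup_coeff_rootPoly (abv v) s hn
  exact hv (by simp [le_antisymm h1 h2])

/-- **Global Gauss–Mahler on the projective line.**  For a family of absolute values with
finitely many non-ultrametric members and `abv v c ≤ 1` for almost all `v`: the logarithmic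
size of the coefficient vector of `∏_{r ∈ s} (X - r)`, summed over the family, is the sum over
the roots `r` of `∑ᶠ v, log max 1 (abv v r)`, up to `#{archimedean v} * card s ^ 2 * log 2`. -/
theorem abs_finsum_log_iSup_coeff_sub_le (H0 : {v | ¬ IsNonarchimedean (abv v)}.Finite)
    (H1 : ∀ c : K, {v | 1 < abv v c}.Finite) (s : Multiset K) {n : ℕ}
    (hn : Multiset.card s ≤ n) :
    |∑ᶠ v, Real.log (⨆ k : Fin (n + 1), abv v ((rootPoly s).coeff k))
        - (s.map fun r => ∑ᶠ v, Real.log (max 1 (abv v r))).sum|
      ≤ H0.toFinset.card * ((Multiset.card s : ℝ) ^ 2 * Real.log 2) := by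
  rw [← finsum_sum_log_max abv H1 s,
    ← finsum_sub_distrib (hasFiniteSupport_log_iSup_coeff abv H1 s hn)
      (hasFiniteSupport_sum_log_max abv H1 s)]
  have hterm : ∀ v, |Real.log (⨆ k : Fin (n + 1), abv v ((rootPoly s).coeff k))
      - (s.map fun r => Real.log (max 1 (abv v r))).sum|
        ≤ (Multiset.card s : ℝ) ^ 2 * Real.log (kp (abv v)) := by
    intro v
    rw [← log_prod_max]
    exact abs_log_iSup_coeff_sub_le (abv v) s hn
  have hsupp : (Function.support fun v => Real.log (⨆ k : Fin (n + 1),
      abv v ((rootPoly s).coeff k)) - (s.map fun r => Real.log (max 1 (abv v r))).sum)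
        ⊆ H0.toFinset := by
    intro v hv
    rw [Set.Finite.coe_toFinset]
    intro hcon
    have h := hterm v
    rw [kp_of_nonarch hcon, Real.log_one, mul_zero] at h
    exact hv (abs_eq_zero.mp (le_antisymm h (abs_nonneg _)))
  rw [finsum_eq_sum_of_support_subset _ hsupp]
  refine (Finset.abs_sum_le_sum_abs _ _).trans ?_
  refine (Finset.sum_le_card_nsmul _ _ ((Multiset.card s : ℝ) ^ 2 * Real.log 2) fun v _ => ?_).trans
    (by rw [nsmul_eq_mul])
  refine (hterm v).trans (mul_le_mul_of_nonneg_left ?_ (by positivity))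
  exact Real.log_le_log (kp_pos _) (kp_le_two _)

end Family

end Fermat.Agent.MW.Height.GaussMahler
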