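/-
MW / heights (helper63) — **projective Nullstellensatz certificates and the height of a
morphism**.  Mathlib only.

Let `K` be a field, `ι` a finite type of variables, `I` a homogeneous ideal of `K[X_ι]` (the
projective variety `V(I)`), and `p : ι' → K[X_ι]` homogeneous polynomials of the same degree `N`
without common zero `≠ 0` on `V(I)` over an algebraically closed extension `L` of `K`.

* `exists_certificate_mod` : there are `M` and homogeneous `q (k, j)` of degree `M` with
  `∑ j, q (k, j) * p j ≡ X k ^ (M + N)` modulo `I` for all `k` (Hilbert's Nullstellensatz over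
  `L`, Mathlib's relative form, and passage to homogeneous components);
* `exists_certificate` : the case `I = ⊥`;
* `exists_abs_logHeight_eval_sub_le` : for an admissible family of absolute values on `K`,
  `|logHeight (p(x)) − N * logHeight x| ≤ C` for all `x ∈ V(I)(K)`: a morphism multiplies heights
  by its degree up to `O(1)`;
* `exists_mulHeight_eval_bounds` : the multiplicative form.
-/
import Mathlib

set_option autoImplicit false

noncomputable section

namespace Fermat.Agent.MW.Height.Morphism

open MvPolynomial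

variable {K : Type*} [Field K] {ι ι' : Type*}

/-- The degree-`(M + N)` component of `a * p` for `p` homogeneous of degree `N`. -/
theorem homogeneousComponent_mul_of_isHomogeneous {N : ℕ} (a p : MvPolynomial ι K)
    (hp : p.IsHomogeneous N) (M : ℕ) :
    homogeneousComponent (M + N) (a * p) = homogeneousComponent M a * p := by
  conv_lhs => rw [← sum_homogeneousComponent a, Finset.sum_mul, map_sum]
  have key : ∀ i ∈ Finset.range (a.totalDegree + 1),
      homogeneousComponent (M + N) (homogeneousComponent i a * p) =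
        if i = M then homogeneousComponent M a * p else 0 := by
    intro i _
    have hmem : homogeneousComponent i a * p ∈ homogeneousSubmodule ι K (i + N) :=
      (homogeneousComponent_isHomogeneous i a).mul hp
    rw [homogeneousComponent_of_mem hmem]
    by_cases h : i = M
    · subst h; simp
    · have : ¬ (M + N = i + N) := fun e => h (by omega)
      rw [if_neg this, if_neg h]
  rw [Finset.sum_congr rfl key, Finset.sum_ite_eq']
  split_ifs with h
  · rfl
  · have : a.totalDegree < M := by
      simpa [Finset.mem_range] using h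
    rw [homogeneousComponent_eq_zero _ _ this, zero_mul]

attribute [local instance] MvPolynomial.gradedAlgebra in
/-- An ideal generated by homogeneous polynomials is stable under homogeneous components. -/
theorem homogeneousComponent_mem_span {κ : Type*} (g : κ → MvPolynomial ι K) (d : κ → ℕ)
    (hg : ∀ i, (g i).IsHomogeneous (d i)) :
    ∀ f ∈ Ideal.span (Set.range g), ∀ n, homogeneousComponent n f ∈ Ideal.span (Set.range g) :=
  fun _ hf n => homogeneousComponent_mem_of_mem
    (Ideal.homogeneous_span _ _ (by rintro _ ⟨i, rfl⟩; exact ⟨d i, hg i⟩)) hf n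

/-- Vanishing on generators is vanishing on the ideal. -/
theorem eval_eq_zero_of_mem_span {κ : Type*} (g : κ → MvPolynomial ι K) (x : ι → K)
    (hx : ∀ i, eval x (g i) = 0) : ∀ f ∈ Ideal.span (Set.range g), eval x f = 0 := by
  intro f hf
  have hle : Ideal.span (Set.range g) ≤ RingHom.ker (eval x) := by
    rw [Ideal.span_le]
    rintro _ ⟨i, rfl⟩
    exact hx i
  exact hle hf

/-- Vanishing on generators is vanishing on the ideal (points in an extension). -/
theorem aeval_eq_zero_of_mem_span {κ : Type*} (g : κ → MvPolynomial ι K)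
    {L : Type*} [Field L] [Algebra K L] (x : ι → L)
    (hx : ∀ i, aeval x (g i) = 0) : ∀ f ∈ Ideal.span (Set.range g), aeval x f = 0 := by
  intro f hf
  have hle : Ideal.span (Set.range g) ≤ RingHom.ker (aeval x : MvPolynomial ι K →ₐ[K] L) := by
    rw [Ideal.span_le]
    rintro _ ⟨i, rfl⟩
    exact hx i
  exact hle hf

variable [Finite ι] [Fintype ι']

/-- **Projective Nullstellensatz certificate modulo a homogeneous ideal.** -/
theorem exists_certificate_mod (I : Ideal (MvPolynomial ι K))
    (hI : ∀ f ∈ I, ∀ n, homogeneousComponent n f ∈ I)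
    {N : ℕ} (p : ι' → MvPolynomial ι K) (hp : ∀ j, (p j).IsHomogeneous N)
    (L : Type*) [Field L] [Algebra K L] [IsAlgClosed L]
    (h0 : ∀ x : ι → L, (∀ f ∈ I, aeval x f = 0) → (∀ j, aeval x (p j) = 0) → x = 0) :
    ∃ (M : ℕ) (q : ι × ι' → MvPolynomial ι K), (∀ a, (q a).IsHomogeneous M) ∧
      ∀ k, ∑ j, q (k, j) * p j - X k ^ (M + N) ∈ I := by
  classical
  have := Fintype.ofFinite ι
  set J : Ideal (MvPolynomial ι K) := I ⊔ Ideal.span (Set.range p) with hJ
  -- every variable is nilpotent modulo `J`
  have hrad : ∀ k, (X k : MvPolynomial ι K) ∈ J.radical := by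
    intro k
    rw [← vanishingIdeal_zeroLocus_eq_radical (K := L), mem_vanishingIdeal_iff]
    intro x hx
    rw [mem_zeroLocus_iff] at hx
    have hx0 : x = 0 := h0 x (fun f hf => hx f (Ideal.mem_sup_left hf))
      (fun j => hx _ (Ideal.mem_sup_right (Ideal.subset_span ⟨j, rfl⟩)))
    simp [hx0]
  choose m hm using hrad
  -- a uniform exponent
  set M : ℕ := ∑ k, m k with hM
  have hpow : ∀ k, (X k : MvPolynomial ι K) ^ (M + N) ∈ J := by
    intro k
    have hle : m k ≤ M + N :=
      (Finset.single_le_sum (fun i _ => Nat.zero_le (m i)) (Finset.mem_univ k)).trans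
        (Nat.le_add_right _ _)
    obtain ⟨d, hd⟩ := Nat.exists_eq_add_of_le hle
    rw [hd, pow_add]
    exact J.mul_mem_right _ (hm k)
  -- split and take homogeneous components
  have hsplit : ∀ k, ∃ g ∈ I, ∃ a : ι' → MvPolynomial ι K,
      g + ∑ j, a j * p j = (X k : MvPolynomial ι K) ^ (M + N) := by
    intro k
    obtain ⟨g, hg, s, hs, hgs⟩ := Submodule.mem_sup.1 (hpow k)
    obtain ⟨a, ha⟩ := (Ideal.mem_span_range_iff_exists_fun).1 hs
    exact ⟨g, hg, a, by rw [ha, hgs]⟩
  choose g hg a ha using hsplit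
  refine ⟨M, fun kj => homogeneousComponent M (a kj.1 kj.2),
    fun kj => homogeneousComponent_isHomogeneous _ _, fun k => ?_⟩
  have h1 := congrArg (homogeneousComponent (M + N)) (ha k)
  rw [map_add, map_sum, homogeneousComponent_eq_self (isHomogeneous_X_pow k (M + N))] at h1
  simp only [homogeneousComponent_mul_of_isHomogeneous _ _ (hp _)] at h1
  have h2 : ∑ j, homogeneousComponent M (a k j) * p j - X k ^ (M + N) =
      -homogeneousComponent (M + N) (g k) := by
    rw [← h1]; ring
  rw [h2]
  exact I.neg_mem (hI _ (hg k) _)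

/-- **Projective Nullstellensatz certificate**: homogeneous polynomials of the same degree
without common zero `≠ 0`. -/
theorem exists_certificate {N : ℕ} (p : ι' → MvPolynomial ι K)
    (hp : ∀ j, (p j).IsHomogeneous N)
    (L : Type*) [Field L] [Algebra K L] [IsAlgClosed L]
    (h0 : ∀ x : ι → L, (∀ j, aeval x (p j) = 0) → x = 0) :
    ∃ (M : ℕ) (q : ι × ι' → MvPolynomial ι K), (∀ a, (q a).IsHomogeneous M) ∧
      ∀ k, ∑ j, q (k, j) * p j = X k ^ (M + N) := by
  obtain ⟨M, q, hq, h⟩ := exists_certificate_mod (⊥ : Ideal (MvPolynomial ι K))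
    (fun f hf n => by rw [Ideal.mem_bot] at hf ⊢; rw [hf, map_zero]) p hp L
    (fun x _ hx => h0 x hx)
  exact ⟨M, q, hq, fun k => sub_eq_zero.1 (by simpa using h k)⟩

open _root_.Height

/-- **A morphism multiplies logarithmic heights by its degree, up to `O(1)`**, on the `K`-points
of the projective variety `V(I)`. -/
theorem exists_abs_logHeight_eval_sub_le [AdmissibleAbsValues K]
    (I : Ideal (MvPolynomial ι K)) (hI : ∀ f ∈ I, ∀ n, homogeneousComponent n f ∈ I)
    {N : ℕ} (p : ι' → MvPolynomial ι K) (hp : ∀ j, (p j).IsHomogeneous N)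
    (L : Type*) [Field L] [Algebra K L] [IsAlgClosed L]
    (h0 : ∀ x : ι → L, (∀ f ∈ I, aeval x f = 0) → (∀ j, aeval x (p j) = 0) → x = 0) :
    ∃ C : ℝ, ∀ x : ι → K, (∀ f ∈ I, eval x f = 0) →
      |logHeight (fun j => (p j).eval x) - N * logHeight x| ≤ C := by
  obtain ⟨M, q, hq, hcert⟩ := exists_certificate_mod I hI p hp L h0
  refine ⟨max (Real.log (max (mulHeightBound p) 1))
    (Real.log (Nat.card ι' ^ totalWeight K * max (mulHeightBound q) 1)), fun x hx => ?_⟩
  have hup := logHeight_eval_le hp x
  have hev : ∀ k, ∑ j, (q (k, j)).eval x * (p j).eval x = (x k) ^ (M + N) := by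
    intro k
    have := hx _ (hcert k)
    rw [map_sub, map_sum, map_pow, eval_X, sub_eq_zero] at this
    simpa [map_mul] using this
  have hlow := logHeight_eval_ge hq p hev
  rw [abs_le]
  constructor
  · have := le_max_right (Real.log (max (mulHeightBound p) 1))
      (Real.log (Nat.card ι' ^ totalWeight K * max (mulHeightBound q) 1))
    linarith
  · have := le_max_left (Real.log (max (mulHeightBound p) 1))
      (Real.log (Nat.card ι' ^ totalWeight K * max (mulHeightBound q) 1))
    linarith

/-- The case of the whole projective space. -/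
theorem exists_abs_logHeight_eval_sub_le' [AdmissibleAbsValues K]
    {N : ℕ} (p : ι' → MvPolynomial ι K) (hp : ∀ j, (p j).IsHomogeneous N)
    (L : Type*) [Field L] [Algebra K L] [IsAlgClosed L]
    (h0 : ∀ x : ι → L, (∀ j, aeval x (p j) = 0) → x = 0) :
    ∃ C : ℝ, ∀ x : ι → K, |logHeight (fun j => (p j).eval x) - N * logHeight x| ≤ C := by
  obtain ⟨C, hC⟩ := exists_abs_logHeight_eval_sub_le (⊥ : Ideal (MvPolynomial ι K))
    (fun f hf n => by rw [Ideal.mem_bot] at hf ⊢; rw [hf, map_zero]) p hp L
    (fun x _ hx => h0 x hx)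
  exact ⟨C, fun x => hC x (fun f hf => by rw [Ideal.mem_bot] at hf; rw [hf, map_zero])⟩

/-- The same for a projective variety cut out by homogeneous equations `g i = 0`. -/
theorem exists_abs_logHeight_eval_sub_le_of_equations [AdmissibleAbsValues K]
    {κ : Type*} (g : κ → MvPolynomial ι K) (d : κ → ℕ) (hg : ∀ i, (g i).IsHomogeneous (d i))
    {N : ℕ} (p : ι' → MvPolynomial ι K) (hp : ∀ j, (p j).IsHomogeneous N)
    (L : Type*) [Field L] [Algebra K L] [IsAlgClosed L]
    (h0 : ∀ x : ι → L, (∀ i, aeval x (g i) = 0) → (∀ j, aeval x (p j) = 0) → x = 0) :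
    ∃ C : ℝ, ∀ x : ι → K, (∀ i, eval x (g i) = 0) →
      |logHeight (fun j => (p j).eval x) - N * logHeight x| ≤ C := by
  obtain ⟨C, hC⟩ := exists_abs_logHeight_eval_sub_le (Ideal.span (Set.range g))
    (homogeneousComponent_mem_span g d hg) p hp L
    (fun x hx hx' => h0 x (fun i => hx _ (Ideal.subset_span ⟨i, rfl⟩)) hx')
  exact ⟨C, fun x hx => hC x (eval_eq_zero_of_mem_span g x hx)⟩

/-- Multiplicative form: `C₁ * H(x)^N ≤ H(p(x)) ≤ C₂ * H(x)^N` on `V(I)(K)`. -/
theorem exists_mulHeight_eval_bounds [AdmissibleAbsValues K]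
    (I : Ideal (MvPolynomial ι K)) (hI : ∀ f ∈ I, ∀ n, homogeneousComponent n f ∈ I)
    {N : ℕ} (p : ι' → MvPolynomial ι K) (hp : ∀ j, (p j).IsHomogeneous N)
    (L : Type*) [Field L] [Algebra K L] [IsAlgClosed L]
    (h0 : ∀ x : ι → L, (∀ f ∈ I, aeval x f = 0) → (∀ j, aeval x (p j) = 0) → x = 0) :
    ∃ C₁ > (0 : ℝ), ∃ C₂ > (0 : ℝ), ∀ x : ι → K, (∀ f ∈ I, eval x f = 0) →
      C₁ * mulHeight x ^ N ≤ mulHeight (fun j => (p j).eval x) ∧
        mulHeight (fun j => (p j).eval x) ≤ C₂ * mulHeight x ^ N := by
  obtain ⟨M, q, hq, hcert⟩ := exists_certificate_mod I hI p hp L h0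
  obtain ⟨C₁, hC₁, h₁⟩ := mulHeight_eval_ge' (K := K) (ι := ι) (ι' := ι') (N := N) hq
  obtain ⟨C₂, hC₂, h₂⟩ := mulHeight_eval_le' hp
  refine ⟨C₁, hC₁, C₂, hC₂, fun x hx => ⟨h₁ p ?_, h₂ x⟩⟩
  intro k
  have := hx _ (hcert k)
  rw [map_sub, map_sum, map_pow, eval_X, sub_eq_zero] at this
  simpa [map_mul] using this

end Fermat.Agent.MW.Height.Morphism
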