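/-
MW / heights (helper63) — **the local (place by place) form of "a morphism multiplies heights by
its degree"**, for ONE absolute value and for a FAMILY of absolute values with finite supports.
Mathlib + `MW/Height/Morphism` only.

For `v : AbsoluteValue K ℝ`, homogeneous `p j` of degree `N` and a certificate
`∑ j, q (k, j)(x) * p j (x) = x k ^ (M + N)` with `q (k, j)` homogeneous of degree `M`:

* `iSup_eval_le`, `pow_le_of_certificate` : `max_j |p_j(x)| ≤ A · max_i |x_i|^N` and
  `max_i |x_i|^N ≤ B · max_j |p_j(x)|` (`x ≠ 0`) with explicit `A`, `B` (sums of absolute values of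
  coefficients);
* `iSup_eval_le_of_nonarch`, `pow_le_of_certificate_of_nonarch` : `A = B = 1` when `v` is
  ultrametric and all coefficients have absolute value `≤ 1`;
* `exists_local_bounds` : for a family `abv : V → AbsoluteValue K ℝ` with
  (H0) only finitely many non-ultrametric members and (H1) `{v | abv v a ≠ 1}` finite for `a ≠ 0`:
  constants `C v ≥ 1`, `= 1` for almost all `v`;
* `exists_local_bounds_of_no_zero` : the same from "no common zero on `V(I)`" (Nullstellensatz
  certificate of `Morphism.exists_certificate_mod`);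
* `exists_abs_finsum_log_sub_le` : the global form
  `|∑ᶠ v, log max_j |p_j(x)|_v − N ∑ᶠ v, log max_i |x_i|_v| ≤ C`.
-/
import Mathlib
import Fermat.Agent.MW.Height.Morphism

set_option autoImplicit false

noncomputable section

namespace Fermat.Agent.MW.Height.MorphismLocal

open MvPolynomial

variable {K : Type*} [Field K] {ι ι' : Type*}

/-- The sum of the absolute values of the coefficients of a polynomial. -/
def coeffSum (v : AbsoluteValue K ℝ) (p : MvPolynomial ι K) : ℝ :=
  (AddMonoidAlgebra.coeff p).sum fun _ c => v c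

theorem coeffSum_nonneg (v : AbsoluteValue K ℝ) (p : MvPolynomial ι K) : 0 ≤ coeffSum v p :=
  Finsupp.sum_nonneg' fun _ => by positivity

variable [Fintype ι] [Fintype ι']

section single

variable (v : AbsoluteValue K ℝ)

omit [Fintype ι] in
theorem iSup_abv_nonneg (x : ι → K) : 0 ≤ ⨆ i, v (x i) :=
  Real.iSup_nonneg fun _ => v.nonneg _

theorem abv_le_iSup (x : ι → K) (i : ι) : v (x i) ≤ ⨆ i, v (x i) :=
  Finite.le_ciSup (fun i => v (x i)) i

theorem iSup_abv_pos {x : ι → K} (hx : x ≠ 0) : 0 < ⨆ i, v (x i) := by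
  obtain ⟨i, hi⟩ := Function.ne_iff.1 hx
  exact lt_of_lt_of_le (v.pos hi) (abv_le_iSup v x i)

theorem exists_abv_eq_iSup {x : ι → K} (hx : x ≠ 0) : ∃ k, v (x k) = ⨆ i, v (x i) := by
  obtain ⟨i, -⟩ := Function.ne_iff.1 hx
  have : Nonempty ι := ⟨i⟩
  exact exists_eq_ciSup_of_finite

/-- Upper bound at an arbitrary absolute value. -/
theorem iSup_eval_le {N : ℕ} {p : ι' → MvPolynomial ι K} (hp : ∀ j, (p j).IsHomogeneous N)
    (x : ι → K) :
    ⨆ j, v (eval x (p j)) ≤ (∑ j, coeffSum v (p j)) * (⨆ i, v (x i)) ^ N := by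
  have hm : 0 ≤ (⨆ i, v (x i)) ^ N := pow_nonneg (iSup_abv_nonneg v x) N
  have hs : 0 ≤ ∑ j, coeffSum v (p j) := Finset.sum_nonneg fun j _ => coeffSum_nonneg v _
  refine Real.iSup_le (fun j => ?_) (mul_nonneg hs hm)
  refine (v.eval_mvPolynomial_le (hp j) x).trans ?_
  refine mul_le_mul_of_nonneg_right ?_ hm
  exact Finset.single_le_sum (f := fun j => coeffSum v (p j))
    (fun j _ => coeffSum_nonneg v _) (Finset.mem_univ j)

/-- Lower bound at an arbitrary absolute value, from a certificate. -/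
theorem pow_le_of_certificate {M N : ℕ} {q : ι × ι' → MvPolynomial ι K}
    (hq : ∀ a, (q a).IsHomogeneous M) (p : ι' → MvPolynomial ι K) {x : ι → K} (hx : x ≠ 0)
    (h : ∀ k, ∑ j, (q (k, j)).eval x * (p j).eval x = (x k) ^ (M + N)) :
    (⨆ i, v (x i)) ^ N ≤ (∑ a, coeffSum v (q a)) * ⨆ j, v (eval x (p j)) := by
  obtain ⟨k, hk⟩ := exists_abv_eq_iSup v hx
  have hm := iSup_abv_pos v hx
  set m : ℝ := ⨆ i, v (x i) with hmdef
  set P : ℝ := ⨆ j, v (eval x (p j)) with hPdef
  have hP : 0 ≤ P := Real.iSup_nonneg fun _ => v.nonneg _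
  have hs : 0 ≤ ∑ a, coeffSum v (q a) := Finset.sum_nonneg fun a _ => coeffSum_nonneg v _
  have h1 : m ^ (M + N) ≤ ((∑ a, coeffSum v (q a)) * P) * m ^ M := by
    calc m ^ (M + N) = v (∑ j, (q (k, j)).eval x * (p j).eval x) := by
          rw [h k, map_pow, hk]
      _ ≤ ∑ j, v ((q (k, j)).eval x * (p j).eval x) := v.sum_le _ _
      _ ≤ ∑ j, (coeffSum v (q (k, j)) * m ^ M) * P := by
          refine Finset.sum_le_sum fun j _ => ?_
          rw [map_mul]
          exact mul_le_mul (v.eval_mvPolynomial_le (hq (k, j)) x)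
            (Finite.le_ciSup (fun j => v (eval x (p j))) j) (v.nonneg _)
            (mul_nonneg (coeffSum_nonneg v _) (pow_nonneg hm.le M))
      _ = ((∑ j, coeffSum v (q (k, j))) * P) * m ^ M := by
          rw [Finset.sum_mul, Finset.sum_mul]
          exact Finset.sum_congr rfl fun j _ => by ring
      _ ≤ ((∑ a, coeffSum v (q a)) * P) * m ^ M := by
          refine mul_le_mul_of_nonneg_right (mul_le_mul_of_nonneg_right ?_ hP)
            (pow_nonneg hm.le M)
          rw [Fintype.sum_prod_type]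
          exact Finset.single_le_sum (f := fun k => ∑ j, coeffSum v (q (k, j)))
            (fun k _ => Finset.sum_nonneg fun j _ => coeffSum_nonneg v _) (Finset.mem_univ k)
  rw [pow_add, mul_comm (m ^ M)] at h1
  exact le_of_mul_le_mul_right h1 (pow_pos hm M)

variable {v}

omit [Fintype ι'] in
/-- Upper bound at an ultrametric absolute value with integral coefficients: constant `1`. -/
theorem iSup_eval_le_of_nonarch (hv : IsNonarchimedean v) {N : ℕ} {p : ι' → MvPolynomial ι K}
    (hp : ∀ j, (p j).IsHomogeneous N) (hc : ∀ j s, v (coeff s (p j)) ≤ 1) (x : ι → K) :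
    ⨆ j, v (eval x (p j)) ≤ (⨆ i, v (x i)) ^ N := by
  have hm : 0 ≤ (⨆ i, v (x i)) ^ N := pow_nonneg (iSup_abv_nonneg v x) N
  refine Real.iSup_le (fun j => ?_) hm
  refine (hv.eval_mvPolynomial_le (hp j) x).trans ?_
  have : (⨆ s : (p j).support, v (coeff s.1 (p j))) ≤ 1 :=
    Real.iSup_le (fun s => hc j s.1) zero_le_one
  calc _ ≤ 1 * (⨆ i, v (x i)) ^ N := mul_le_mul_of_nonneg_right this hm
    _ = _ := one_mul _

/-- Lower bound at an ultrametric absolute value with integral certificate: constant `1`. -/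
theorem pow_le_of_certificate_of_nonarch (hv : IsNonarchimedean v) {M N : ℕ}
    {q : ι × ι' → MvPolynomial ι K} (hq : ∀ a, (q a).IsHomogeneous M)
    (hc : ∀ a s, v (coeff s (q a)) ≤ 1) (p : ι' → MvPolynomial ι K) {x : ι → K} (hx : x ≠ 0)
    (h : ∀ k, ∑ j, (q (k, j)).eval x * (p j).eval x = (x k) ^ (M + N)) :
    (⨆ i, v (x i)) ^ N ≤ ⨆ j, v (eval x (p j)) := by
  obtain ⟨k, hk⟩ := exists_abv_eq_iSup v hx
  have hm := iSup_abv_pos v hx
  set m : ℝ := ⨆ i, v (x i) with hmdef
  set P : ℝ := ⨆ j, v (eval x (p j)) with hPdef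
  have hP : 0 ≤ P := Real.iSup_nonneg fun _ => v.nonneg _
  have h1 : m ^ (M + N) ≤ P * m ^ M := by
    calc m ^ (M + N) = v (∑ j, (q (k, j)).eval x * (p j).eval x) := by
          rw [h k, map_pow, hk]
      _ ≤ ⨆ j, v ((q (k, j)).eval x * (p j).eval x) := hv.apply_sum_univ_le
      _ ≤ P * m ^ M := by
          refine Real.iSup_le (fun j => ?_) (mul_nonneg hP (pow_nonneg hm.le M))
          rw [map_mul, mul_comm]
          refine mul_le_mul (Finite.le_ciSup (fun j => v (eval x (p j))) j) ?_ (v.nonneg _) hP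
          refine (hv.eval_mvPolynomial_le (hq (k, j)) x).trans ?_
          have : (⨆ s : (q (k, j)).support, v (coeff s.1 (q (k, j)))) ≤ 1 :=
            Real.iSup_le (fun s => hc (k, j) s.1) zero_le_one
          calc _ ≤ 1 * m ^ M := mul_le_mul_of_nonneg_right this (pow_nonneg hm.le M)
            _ = _ := one_mul _
  rw [pow_add, mul_comm (m ^ M)] at h1
  exact le_of_mul_le_mul_right h1 (pow_pos hm M)

end single

section family

variable {V : Type*} (abv : V → AbsoluteValue K ℝ)

/-- The places at which a finite family of polynomials is not "integral ultrametric". -/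
def badSet {κ : Type*} (r : κ → MvPolynomial ι K) : Set V :=
  {v | ¬ IsNonarchimedean (abv v)} ∪ ⋃ a : κ, ⋃ s ∈ (r a).support, {v | abv v (coeff s (r a)) ≠ 1}

omit [Fintype ι] in
theorem badSet_finite (H0 : {v | ¬ IsNonarchimedean (abv v)}.Finite)
    (H1 : ∀ a : K, a ≠ 0 → {v | abv v a ≠ 1}.Finite) {κ : Type*} [Finite κ]
    (r : κ → MvPolynomial ι K) : (badSet abv r).Finite := by
  refine H0.union (Set.finite_iUnion fun a => ?_)
  refine Set.Finite.biUnion (r a).support.finite_toSet fun s hs => ?_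
  exact H1 _ (by simpa using hs)

omit [Fintype ι] in
theorem nonarch_of_notMem_badSet {κ : Type*} {r : κ → MvPolynomial ι K} {v : V}
    (hv : v ∉ badSet abv r) : IsNonarchimedean (abv v) := by
  by_contra h
  exact hv (Or.inl h)

omit [Fintype ι] in
theorem coeff_le_one_of_notMem_badSet {κ : Type*} {r : κ → MvPolynomial ι K} {v : V}
    (hv : v ∉ badSet abv r) (a : κ) (s : ι →₀ ℕ) : abv v (coeff s (r a)) ≤ 1 := by
  by_cases hs : s ∈ (r a).support
  · by_contra h
    refine hv (Or.inr ?_)
    simp only [Set.mem_iUnion]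
    exact ⟨a, s, hs, fun e => h e.le⟩
  · rw [notMem_support_iff.1 hs, map_zero]
    exact zero_le_one

/-- **Local bounds for a family of absolute values**: constants `C v ≥ 1`, equal to `1` for
almost all `v`. -/
theorem exists_local_bounds (H0 : {v | ¬ IsNonarchimedean (abv v)}.Finite)
    (H1 : ∀ a : K, a ≠ 0 → {v | abv v a ≠ 1}.Finite)
    {M N : ℕ} (p : ι' → MvPolynomial ι K) (hp : ∀ j, (p j).IsHomogeneous N)
    (q : ι × ι' → MvPolynomial ι K) (hq : ∀ a, (q a).IsHomogeneous M) :
    ∃ C : V → ℝ, (∀ v, 1 ≤ C v) ∧ {v | C v ≠ 1}.Finite ∧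
      ∀ v (x : ι → K),
        (⨆ j, abv v (eval x (p j)) ≤ C v * (⨆ i, abv v (x i)) ^ N) ∧
        (x ≠ 0 → (∀ k, ∑ j, (q (k, j)).eval x * (p j).eval x = (x k) ^ (M + N)) →
          (⨆ i, abv v (x i)) ^ N ≤ C v * ⨆ j, abv v (eval x (p j))) := by
  classical
  set B : Set V := badSet abv p ∪ badSet abv q with hB
  have hBfin : B.Finite := (badSet_finite abv H0 H1 p).union (badSet_finite abv H0 H1 q)
  refine ⟨fun v => if v ∈ B then
      max 1 (max (∑ j, coeffSum (abv v) (p j)) (∑ a, coeffSum (abv v) (q a))) else 1,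
    fun v => ?_, hBfin.subset fun v hv => ?_, fun v x => ?_⟩
  · by_cases h : v ∈ B
    · simp only [if_pos h]; exact le_max_left _ _
    · simp only [if_neg h]; exact le_refl _
  · by_contra h
    exact hv (by simp only [if_neg h])
  · by_cases h : v ∈ B
    · simp only [if_pos h]
      constructor
      · refine (iSup_eval_le (abv v) hp x).trans ?_
        refine mul_le_mul_of_nonneg_right ?_ (pow_nonneg (iSup_abv_nonneg _ x) N)
        exact (le_max_left _ _).trans (le_max_right _ _)
      · intro hx hcert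
        refine (pow_le_of_certificate (abv v) hq p hx hcert).trans ?_
        refine mul_le_mul_of_nonneg_right ?_ (Real.iSup_nonneg fun _ => (abv v).nonneg _)
        exact (le_max_right _ _).trans (le_max_right _ _)
    · simp only [if_neg h, one_mul]
      have hp' : v ∉ badSet abv p := fun h' => h (Or.inl h')
      have hq' : v ∉ badSet abv q := fun h' => h (Or.inr h')
      exact ⟨iSup_eval_le_of_nonarch (nonarch_of_notMem_badSet abv hp') hp
          (coeff_le_one_of_notMem_badSet abv hp') x,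
        fun hx hcert => pow_le_of_certificate_of_nonarch (nonarch_of_notMem_badSet abv hq') hq
          (coeff_le_one_of_notMem_badSet abv hq') p hx hcert⟩

/-- **Local bounds from "no common zero on `V(I)`"** (projective Nullstellensatz). -/
theorem exists_local_bounds_of_no_zero (H0 : {v | ¬ IsNonarchimedean (abv v)}.Finite)
    (H1 : ∀ a : K, a ≠ 0 → {v | abv v a ≠ 1}.Finite)
    (I : Ideal (MvPolynomial ι K)) (hI : ∀ f ∈ I, ∀ n, homogeneousComponent n f ∈ I)
    {N : ℕ} (p : ι' → MvPolynomial ι K) (hp : ∀ j, (p j).IsHomogeneous N)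
    (L : Type*) [Field L] [Algebra K L] [IsAlgClosed L]
    (h0 : ∀ x : ι → L, (∀ f ∈ I, aeval x f = 0) → (∀ j, aeval x (p j) = 0) → x = 0) :
    ∃ C : V → ℝ, (∀ v, 1 ≤ C v) ∧ {v | C v ≠ 1}.Finite ∧
      ∀ v (x : ι → K), (∀ f ∈ I, eval x f = 0) →
        (⨆ j, abv v (eval x (p j)) ≤ C v * (⨆ i, abv v (x i)) ^ N) ∧
        (x ≠ 0 → (⨆ i, abv v (x i)) ^ N ≤ C v * ⨆ j, abv v (eval x (p j))) := by
  obtain ⟨M, q, hq, hcert⟩ := Morphism.exists_certificate_mod I hI p hp L h0
  obtain ⟨C, hC1, hCfin, hC⟩ := exists_local_bounds abv H0 H1 p hp q hq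
  refine ⟨C, hC1, hCfin, fun v x hx => ⟨(hC v x).1, fun hx0 => (hC v x).2 hx0 fun k => ?_⟩⟩
  have := hx _ (hcert k)
  rw [map_sub, map_sum, map_pow, eval_X, sub_eq_zero] at this
  simpa [map_mul] using this

omit [Fintype ι'] in
/-- For `x ≠ 0`, the local sizes `max_i |x_i|_v` are `1` for almost all `v`. -/
theorem finite_iSup_abv_ne_one (H1 : ∀ a : K, a ≠ 0 → {v | abv v a ≠ 1}.Finite)
    {x : ι → K} (hx : x ≠ 0) : {v | (⨆ i, abv v (x i)) ≠ 1}.Finite := by
  have hfin : (⋃ i ∈ {i : ι | x i ≠ 0}, {v | abv v (x i) ≠ 1}).Finite :=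
    Set.Finite.biUnion (Set.toFinite _) fun i hi => H1 _ hi
  refine hfin.subset fun v hv => ?_
  by_contra hcon
  simp only [Set.mem_iUnion, not_exists] at hcon
  have h1 : ∀ i, x i ≠ 0 → abv v (x i) = 1 := fun i hi => by
    by_contra h
    exact hcon i hi h
  obtain ⟨i₀, hi₀⟩ := Function.ne_iff.1 hx
  refine hv (le_antisymm (Real.iSup_le (fun i => ?_) zero_le_one) ?_)
  · by_cases hi : x i = 0
    · rw [hi, map_zero]; exact zero_le_one
    · exact (h1 i hi).le
  · exact (h1 i₀ hi₀).symm.le.trans (abv_le_iSup (abv v) x i₀)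

/-- **Global form**: the sum over all places of `log max_j |p_j(x)|_v` is `N` times the sum of
`log max_i |x_i|_v`, up to a constant, on the nonzero `K`-points of the cone over `V(I)`. -/
theorem exists_abs_finsum_log_sub_le (H0 : {v | ¬ IsNonarchimedean (abv v)}.Finite)
    (H1 : ∀ a : K, a ≠ 0 → {v | abv v a ≠ 1}.Finite)
    (I : Ideal (MvPolynomial ι K)) (hI : ∀ f ∈ I, ∀ n, homogeneousComponent n f ∈ I)
    {N : ℕ} (p : ι' → MvPolynomial ι K) (hp : ∀ j, (p j).IsHomogeneous N)
    (L : Type*) [Field L] [Algebra K L] [IsAlgClosed L]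
    (h0 : ∀ x : ι → L, (∀ f ∈ I, aeval x f = 0) → (∀ j, aeval x (p j) = 0) → x = 0) :
    ∃ C : ℝ, ∀ x : ι → K, x ≠ 0 → (∀ f ∈ I, eval x f = 0) →
      |∑ᶠ v, Real.log (⨆ j, abv v (eval x (p j))) -
          N * ∑ᶠ v, Real.log (⨆ i, abv v (x i))| ≤ C := by
  classical
  obtain ⟨C, hC1, hCfin, hC⟩ := exists_local_bounds_of_no_zero abv H0 H1 I hI p hp L h0
  refine ⟨∑ v ∈ hCfin.toFinset, Real.log (C v), fun x hx0 hx => ?_⟩
  set m : V → ℝ := fun v => ⨆ i, abv v (x i) with hm_def
  set P : V → ℝ := fun v => ⨆ j, abv v (eval x (p j)) with hP_def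
  have hm : ∀ v, 0 < m v := fun v => iSup_abv_pos (abv v) hx0
  have hCpos : ∀ v, 0 < C v := fun v => lt_of_lt_of_le zero_lt_one (hC1 v)
  have hP : ∀ v, 0 < P v := fun v => by
    have h1 := (hC v x hx).2 hx0
    have h2 : 0 < (m v) ^ N := pow_pos (hm v) N
    by_contra hneg
    have h3 : P v ≤ 0 := not_lt.1 hneg
    have h4 : C v * P v ≤ 0 := mul_nonpos_of_nonneg_of_nonpos (hCpos v).le h3
    linarith
  set d : V → ℝ := fun v => Real.log (P v) - N * Real.log (m v) with hd_def
  have key : ∀ v, |d v| ≤ Real.log (C v) := fun v => by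
    have hup := (hC v x hx).1
    have hlow := (hC v x hx).2 hx0
    have e1 : Real.log (P v) ≤ Real.log (C v) + N * Real.log (m v) := by
      have := Real.log_le_log (hP v) hup
      rwa [Real.log_mul (hCpos v).ne' (pow_pos (hm v) N).ne', Real.log_pow] at this
    have e2 : N * Real.log (m v) ≤ Real.log (C v) + Real.log (P v) := by
      have := Real.log_le_log (pow_pos (hm v) N) hlow
      rwa [Real.log_mul (hCpos v).ne' (hP v).ne', Real.log_pow] at this
    rw [abs_le]
    constructor <;> simp only [hd_def] <;> linarith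
  have hd_supp : Function.support d ⊆ ↑hCfin.toFinset := fun v hv => by
    rw [Set.Finite.coe_toFinset]
    show C v ≠ 1
    intro hCv
    have := key v
    rw [hCv, Real.log_one] at this
    exact hv (abs_nonpos_iff.1 this)
  have hm_supp : (Function.support fun v => Real.log (m v)).Finite := by
    refine (finite_iSup_abv_ne_one abv H1 hx0).subset fun v hv => ?_
    intro h1
    apply hv
    show Real.log (m v) = 0
    rw [show m v = 1 from h1, Real.log_one]
  have hNm_supp : (Function.support fun v => (N : ℝ) * Real.log (m v)).Finite :=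
    hm_supp.subset fun v hv h0' => hv (by
      show (N : ℝ) * Real.log (m v) = 0
      rw [show Real.log (m v) = 0 from h0', mul_zero])
  have hd_fin : (Function.support d).Finite := hCfin.toFinset.finite_toSet.subset hd_supp
  have e : (fun v => Real.log (P v)) = fun v => d v + (N : ℝ) * Real.log (m v) := by
    funext v; simp only [hd_def]; ring
  have hsum : ∑ᶠ v, Real.log (P v) = ∑ᶠ v, d v + N * ∑ᶠ v, Real.log (m v) := by
    rw [e, finsum_add_distrib hd_fin hNm_supp, mul_finsum]
  rw [hsum, add_sub_cancel_right, finsum_eq_sum_of_support_subset _ hd_supp]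
  exact (Finset.abs_sum_le_sum_abs _ _).trans (Finset.sum_le_sum fun v _ => key v)

end family

end Fermat.Agent.MW.Height.MorphismLocal
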