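/-
MW / heights (helper63) — the morphism bounds of `MorphismLocal` in the vocabulary of
`MW/HtM/Tame.lean` (`AbsFamily K V`, `Tame C`).

* `AbsFamily.finite_abv_ne_one` : `{v | F.abv v a ≠ 1}` is finite for `a ≠ 0`;
* `exists_tame_bounds` : homogeneous `p` of degree `N` with a certificate `q`: a tame `C` with
  `max_j |p_j(x)|_v ≤ C v · max_i |x_i|_v^N` and `max_i |x_i|_v^N ≤ C v · max_j |p_j(x)|_v`;
* `exists_tame_bounds_of_no_zero` : the same from "no common zero `≠ 0` on `V(I)`";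
* `exists_abs_finsum_log_sub_le_of_absFamily` : the global form.
-/
import Mathlib
import Fermat.Agent.MW.HtM.Tame
import Fermat.Agent.MW.Height.MorphismLocal

set_option autoImplicit false

noncomputable section

namespace Fermat.Agent.MW.Height.MorphismTame

open MvPolynomial Fermat.Agent.MW.HtM

variable {K : Type*} [Field K] {V : Type*} (F : AbsFamily K V)

/-- In an `AbsFamily`, a nonzero element has absolute value `1` at almost all places. -/
theorem AbsFamily.finite_abv_ne_one {a : K} (ha : a ≠ 0) : {v | F.abv v a ≠ 1}.Finite := by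
  refine ((F.finite_gt_one a).union (F.finite_gt_one a⁻¹)).subset fun v hv => ?_
  rcases lt_or_gt_of_ne (show F.abv v a ≠ 1 from hv) with h | h
  · right
    show 1 < F.abv v a⁻¹
    rw [map_inv₀]
    exact (one_lt_inv₀ ((F.abv v).pos ha)).2 h
  · left
    exact h

variable {ι ι' : Type*} [Fintype ι] [Fintype ι']

/-- **Tame two-sided bounds for a morphism given with a certificate.** -/
theorem exists_tame_bounds {M N : ℕ} (p : ι' → MvPolynomial ι K)
    (hp : ∀ j, (p j).IsHomogeneous N) (q : ι × ι' → MvPolynomial ι K)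
    (hq : ∀ a, (q a).IsHomogeneous M) :
    ∃ C : V → ℝ, Tame C ∧ ∀ v (x : ι → K),
        (⨆ j, F.abv v (eval x (p j)) ≤ C v * (⨆ i, F.abv v (x i)) ^ N) ∧
        (x ≠ 0 → (∀ k, ∑ j, (q (k, j)).eval x * (p j).eval x = (x k) ^ (M + N)) →
          (⨆ i, F.abv v (x i)) ^ N ≤ C v * ⨆ j, F.abv v (eval x (p j))) := by
  obtain ⟨C, h1, h2, h3⟩ := MorphismLocal.exists_local_bounds F.abv F.finite_arch
    (fun a ha => AbsFamily.finite_abv_ne_one F ha) p hp q hq
  exact ⟨C, ⟨h1, h2⟩, h3⟩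

/-- **Tame two-sided bounds for a morphism without base point on `V(I)`.** -/
theorem exists_tame_bounds_of_no_zero
    (I : Ideal (MvPolynomial ι K)) (hI : ∀ f ∈ I, ∀ n, homogeneousComponent n f ∈ I)
    {N : ℕ} (p : ι' → MvPolynomial ι K) (hp : ∀ j, (p j).IsHomogeneous N)
    (L : Type*) [Field L] [Algebra K L] [IsAlgClosed L]
    (h0 : ∀ x : ι → L, (∀ f ∈ I, aeval x f = 0) → (∀ j, aeval x (p j) = 0) → x = 0) :
    ∃ C : V → ℝ, Tame C ∧ ∀ v (x : ι → K), (∀ f ∈ I, eval x f = 0) →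
        (⨆ j, F.abv v (eval x (p j)) ≤ C v * (⨆ i, F.abv v (x i)) ^ N) ∧
        (x ≠ 0 → (⨆ i, F.abv v (x i)) ^ N ≤ C v * ⨆ j, F.abv v (eval x (p j))) := by
  obtain ⟨C, h1, h2, h3⟩ := MorphismLocal.exists_local_bounds_of_no_zero F.abv F.finite_arch
    (fun a ha => AbsFamily.finite_abv_ne_one F ha) I hI p hp L h0
  exact ⟨C, ⟨h1, h2⟩, h3⟩

/-- **Global form** for an `AbsFamily`. -/
theorem exists_abs_finsum_log_sub_le_of_absFamily
    (I : Ideal (MvPolynomial ι K)) (hI : ∀ f ∈ I, ∀ n, homogeneousComponent n f ∈ I)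
    {N : ℕ} (p : ι' → MvPolynomial ι K) (hp : ∀ j, (p j).IsHomogeneous N)
    (L : Type*) [Field L] [Algebra K L] [IsAlgClosed L]
    (h0 : ∀ x : ι → L, (∀ f ∈ I, aeval x f = 0) → (∀ j, aeval x (p j) = 0) → x = 0) :
    ∃ C : ℝ, ∀ x : ι → K, x ≠ 0 → (∀ f ∈ I, eval x f = 0) →
      |∑ᶠ v, Real.log (⨆ j, F.abv v (eval x (p j))) -
          N * ∑ᶠ v, Real.log (⨆ i, F.abv v (x i))| ≤ C :=
  MorphismLocal.exists_abs_finsum_log_sub_le F.abv F.finite_arch
    (fun _ ha => AbsFamily.finite_abv_ne_one F ha) I hI p hp L h0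

end Fermat.Agent.MW.Height.MorphismTame
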