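/-
MW / S17, [H-pos] (DEG-2) + the descent glue (helper63).  Mathlib only.

* `canon q` : the Tate limit `x ↦ lim q (2ⁿ x) / 4ⁿ` of a function satisfying the parallelogram
  law up to a bounded error; it satisfies the EXACT parallelogram law (`canon_par`) and stays at
  bounded distance from `q` (`abs_canon_sub`).
* `exists_height_of_cover` (DEG-2): if `q ≥ -C₁` and the Northcott property hold only on a set `S`
  of "good" elements, and every element has a translate in `S` by an element of a FINITE set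
  `𝒞`, then the canonical function is `≥ 0` and Northcott on the whole group.
* `fg_of_cover`, `fg_of_cover_of_injective` : the descent glue with Mathlib's
  `AddCommGroup.fg_of_descent'`.
-/
import Mathlib

set_option autoImplicit false

namespace Fermat.Agent.MW.Height.QuasiQuad

open Filter Topology

variable {G : Type*} [AddCommGroup G]

/-- The Tate sequence `q (2 ^ n • x) / 4 ^ n`. -/
noncomputable def tateSeq (q : G → ℝ) (x : G) (n : ℕ) : ℝ := q ((2 ^ n : ℕ) • x) / 4 ^ n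

/-- The Tate limit (canonical function) of `q`. -/
noncomputable def canon (q : G → ℝ) (x : G) : ℝ := limUnder atTop (tateSeq q x)

section Canonical

variable {q : G → ℝ} {C : ℝ}

theorem abs_two_nsmul_sub (hpar : ∀ x y, |q (x + y) + q (x - y) - 2 * (q x + q y)| ≤ C)
    (x : G) : |q (2 • x) - 4 * q x| ≤ C + |q 0| := by
  have h := hpar x x
  rw [sub_self, ← two_nsmul] at h
  have h1 : q (2 • x) - 4 * q x = (q (2 • x) + q 0 - 2 * (q x + q x)) - q 0 := by ring
  rw [h1]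
  calc |(q (2 • x) + q 0 - 2 * (q x + q x)) - q 0|
      ≤ |q (2 • x) + q 0 - 2 * (q x + q x)| + |q 0| := abs_sub _ _
    _ ≤ C + |q 0| := by linarith

theorem dist_tateSeq_succ (hpar : ∀ x y, |q (x + y) + q (x - y) - 2 * (q x + q y)| ≤ C)
    (x : G) (n : ℕ) :
    dist (tateSeq q x n) (tateSeq q x (n + 1)) ≤ ((C + |q 0|) / 4) * (1 / 4) ^ n := by
  have h := abs_two_nsmul_sub hpar ((2 ^ n : ℕ) • x)
  have e : (2 ^ (n + 1) : ℕ) • x = 2 • ((2 ^ n : ℕ) • x) := by
    rw [smul_smul, pow_succ, mul_comm]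
  rw [Real.dist_eq, tateSeq, tateSeq, e]
  have h4 : (0 : ℝ) < 4 ^ n := by positivity
  have h4' : (0 : ℝ) < 4 ^ (n + 1) := by positivity
  have e2 : q ((2 ^ n : ℕ) • x) / 4 ^ n - q (2 • (2 ^ n : ℕ) • x) / 4 ^ (n + 1) =
      -(q (2 • (2 ^ n : ℕ) • x) - 4 * q ((2 ^ n : ℕ) • x)) / 4 ^ (n + 1) := by
    rw [pow_succ]
    field_simp
    ring
  rw [e2, abs_div, abs_neg, abs_of_pos h4', div_le_iff₀ h4']
  calc |q (2 • (2 ^ n : ℕ) • x) - 4 * q ((2 ^ n : ℕ) • x)| ≤ C + |q 0| := h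
    _ = (C + |q 0|) / 4 * (1 / 4) ^ n * 4 ^ (n + 1) := by
      rw [pow_succ, one_div, inv_pow]
      field_simp

theorem exists_tendsto (hpar : ∀ x y, |q (x + y) + q (x - y) - 2 * (q x + q y)| ≤ C) (x : G) :
    ∃ a : ℝ, Tendsto (tateSeq q x) atTop (𝓝 a) ∧ |q x - a| ≤ (C + |q 0|) / 3 := by
  have hc := cauchySeq_of_le_geometric (1 / 4) ((C + |q 0|) / 4) (by norm_num)
    (dist_tateSeq_succ hpar x)
  obtain ⟨a, ha⟩ := cauchySeq_tendsto_of_complete hc
  refine ⟨a, ha, ?_⟩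
  have h := dist_le_of_le_geometric_of_tendsto₀ (1 / 4) ((C + |q 0|) / 4) (by norm_num)
    (dist_tateSeq_succ hpar x) ha
  rw [Real.dist_eq] at h
  have e0 : tateSeq q x 0 = q x := by simp [tateSeq]
  rw [e0] at h
  calc |q x - a| ≤ (C + |q 0|) / 4 / (1 - 1 / 4) := h
    _ = (C + |q 0|) / 3 := by ring

theorem tendsto_canon (hpar : ∀ x y, |q (x + y) + q (x - y) - 2 * (q x + q y)| ≤ C) (x : G) :
    Tendsto (tateSeq q x) atTop (𝓝 (canon q x)) := by
  obtain ⟨a, ha, -⟩ := exists_tendsto hpar x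
  rw [canon, ha.limUnder_eq]
  exact ha

/-- The canonical function stays at bounded distance from `q`. -/
theorem abs_canon_sub (hpar : ∀ x y, |q (x + y) + q (x - y) - 2 * (q x + q y)| ≤ C) (x : G) :
    |canon q x - q x| ≤ (C + |q 0|) / 3 := by
  obtain ⟨a, ha, hb⟩ := exists_tendsto hpar x
  rw [canon, ha.limUnder_eq, abs_sub_comm]
  exact hb

/-- The canonical function satisfies the exact parallelogram law. -/
theorem canon_par (hpar : ∀ x y, |q (x + y) + q (x - y) - 2 * (q x + q y)| ≤ C) (x y : G) :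
    canon q (x + y) + canon q (x - y) = 2 * (canon q x + canon q y) := by
  have h1 := ((tendsto_canon hpar (x + y)).add (tendsto_canon hpar (x - y))).sub
    (((tendsto_canon hpar x).add (tendsto_canon hpar y)).const_mul 2)
  have h2 : Tendsto (fun n => tateSeq q (x + y) n + tateSeq q (x - y) n -
      2 * (tateSeq q x n + tateSeq q y n)) atTop (𝓝 0) := by
    apply squeeze_zero_norm (a := fun n : ℕ => C * (1 / 4 : ℝ) ^ n)
    · intro n
      rw [Real.norm_eq_abs]
      have h := hpar ((2 ^ n : ℕ) • x) ((2 ^ n : ℕ) • y)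
      rw [← smul_add, ← smul_sub] at h
      simp only [tateSeq]
      have h4 : (0 : ℝ) < 4 ^ n := by positivity
      have e : q ((2 ^ n : ℕ) • (x + y)) / 4 ^ n + q ((2 ^ n : ℕ) • (x - y)) / 4 ^ n -
          2 * (q ((2 ^ n : ℕ) • x) / 4 ^ n + q ((2 ^ n : ℕ) • y) / 4 ^ n) =
          (q ((2 ^ n : ℕ) • (x + y)) + q ((2 ^ n : ℕ) • (x - y)) -
            2 * (q ((2 ^ n : ℕ) • x) + q ((2 ^ n : ℕ) • y))) / 4 ^ n := by ring
      rw [e, abs_div, abs_of_pos h4, div_le_iff₀ h4]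
      calc _ ≤ C := h
        _ = C * (1 / 4) ^ n * 4 ^ n := by
          rw [one_div, inv_pow]
          field_simp
    · have h : Tendsto (fun n : ℕ => C * (1 / 4 : ℝ) ^ n) atTop (𝓝 (C * 0)) :=
        (tendsto_pow_atTop_nhds_zero_of_lt_one (by norm_num) (by norm_num)).const_mul C
      simpa using h
  have h3 := tendsto_nhds_unique h1 h2
  linarith

/-- **(Q1)** A function satisfying the parallelogram law up to a bounded error is at bounded
distance from a function satisfying it exactly. -/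
theorem exists_canonical (q : G → ℝ) (C : ℝ)
    (hpar : ∀ x y, |q (x + y) + q (x - y) - 2 * (q x + q y)| ≤ C) :
    ∃ h : G → ℝ, (∀ x y, h (x + y) + h (x - y) = 2 * (h x + h y)) ∧ ∃ D, ∀ x, |h x - q x| ≤ D :=
  ⟨canon q, canon_par hpar, (C + |q 0|) / 3, abs_canon_sub hpar⟩

end Canonical

section Exact

variable {h : G → ℝ}

theorem exact_zero (hp : ∀ x y, h (x + y) + h (x - y) = 2 * (h x + h y)) : h 0 = 0 := by
  have := hp 0 0
  simp only [add_zero, sub_zero] at this
  linarith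

theorem exact_neg (hp : ∀ x y, h (x + y) + h (x - y) = 2 * (h x + h y)) (y : G) :
    h (-y) = h y := by
  have := hp 0 y
  rw [zero_add, zero_sub, exact_zero hp] at this
  linarith

/-- Along a line `n ↦ n • x + c`, an exact quadratic function is a quadratic polynomial in `n`. -/
theorem exact_line (hp : ∀ x y, h (x + y) + h (x - y) = 2 * (h x + h y)) (x c : G) (n : ℕ) :
    h (n • x + c) = (n : ℝ) ^ 2 * h x + n * (h (x + c) - h x - h c) + h c := by
  have key : ∀ n : ℕ, h (n • x + c) = (n : ℝ) ^ 2 * h x + n * (h (x + c) - h x - h c) + h c ∧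
      h ((n + 1) • x + c) =
        ((n + 1 : ℕ) : ℝ) ^ 2 * h x + ((n + 1 : ℕ) : ℝ) * (h (x + c) - h x - h c) + h c := by
    intro n
    induction n with
    | zero =>
      refine ⟨by simp, ?_⟩
      simp only [zero_add, one_smul, Nat.cast_one]
      ring
    | succ n ih =>
      obtain ⟨h0, h1⟩ := ih
      refine ⟨h1, ?_⟩
      have h2 := hp ((n + 1) • x + c) x
      have e1 : (n + 1) • x + c + x = (n + 1 + 1) • x + c := by
        simp only [add_nsmul, one_nsmul]; abel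
      have e2 : (n + 1) • x + c - x = n • x + c := by
        simp only [add_nsmul, one_nsmul]; abel
      rw [e1, e2, h0, h1] at h2
      push_cast at h2 ⊢
      linarith
  exact (key n).1

/-- An exact quadratic function which is `≥ 0` satisfies `h (x + c) ≤ 2 h x + 2 h c`. -/
theorem exact_add_le (hp : ∀ x y, h (x + y) + h (x - y) = 2 * (h x + h y))
    (h0 : ∀ x, 0 ≤ h x) (x c : G) : h (x + c) ≤ 2 * h x + 2 * h c := by
  have := hp x c
  have := h0 (x - c)
  linarith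

end Exact

/-- **(Q2) = (DEG-2).**  Let `q` satisfy the parallelogram law up to a bounded error.  Assume
`q ≥ -C₁` and the Northcott property on a set `S` of "good" elements, and that every element of
`G` has a translate in `S` by an element of a finite set `𝒞`.  Then the canonical function of
`q` is nonnegative, satisfies the exact parallelogram law, stays at bounded distance from `q`,
and is Northcott on the whole of `G`. -/
theorem exists_height_of_cover (q : G → ℝ) (C : ℝ)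
    (hpar : ∀ x y, |q (x + y) + q (x - y) - 2 * (q x + q y)| ≤ C)
    (S 𝒞 : Set G) (h𝒞 : 𝒞.Finite) (hcov : ∀ x, ∃ c ∈ 𝒞, x + c ∈ S)
    (C₁ : ℝ) (hpos : ∀ x ∈ S, -C₁ ≤ q x)
    (hN : ∀ B : ℝ, {x | x ∈ S ∧ q x ≤ B}.Finite) :
    ∃ h : G → ℝ, (∀ x, 0 ≤ h x) ∧ (∀ x y, h (x + y) + h (x - y) = 2 * (h x + h y)) ∧
      (∃ D, ∀ x, |h x - q x| ≤ D) ∧ Northcott h := by
  have hp := canon_par hpar
  have hD := abs_canon_sub hpar
  obtain ⟨M, hM⟩ := (h𝒞.image (fun c => |canon q c|)).bddAbove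
  have hM' : ∀ c ∈ 𝒞, |canon q c| ≤ M := fun c hc => hM (Set.mem_image_of_mem _ hc)
  have hnonneg : ∀ x, 0 ≤ canon q x := by
    intro x
    by_contra hx
    push Not at hx
    obtain ⟨M₁, hM₁⟩ :=
      (h𝒞.image (fun c => |canon q (x + c) - canon q x - canon q c|)).bddAbove
    have hM₁' : ∀ c ∈ 𝒞, |canon q (x + c) - canon q x - canon q c| ≤ M₁ :=
      fun c hc => hM₁ (Set.mem_image_of_mem _ hc)
    obtain ⟨n, hn⟩ := exists_nat_gt
      (max 1 ((M₁ + |M + C₁ + (C + |q 0|) / 3| + 1) / (-(canon q x))))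
    have hn1 : (1 : ℝ) < n := lt_of_le_of_lt (le_max_left _ _) hn
    have hn2 : (M₁ + |M + C₁ + (C + |q 0|) / 3| + 1) / (-(canon q x)) < n :=
      lt_of_le_of_lt (le_max_right _ _) hn
    have ha : 0 < -(canon q x) := by linarith
    rw [div_lt_iff₀ ha] at hn2
    obtain ⟨c, hc, hcS⟩ := hcov (n • x)
    have h1 := exact_line hp x c n
    have h2 := hpos _ hcS
    have h3 := abs_le.mp (hD (n • x + c))
    have h4 := abs_le.mp (hM₁' c hc)
    have h5 := abs_le.mp (hM' c hc)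
    have h6 := le_abs_self (M + C₁ + (C + |q 0|) / 3)
    have h7 : (n : ℝ) * (canon q (x + c) - canon q x - canon q c) ≤ n * M₁ :=
      mul_le_mul_of_nonneg_left h4.2 (by linarith)
    have h8 : 0 ≤ |M + C₁ + (C + |q 0|) / 3| := abs_nonneg _
    nlinarith [mul_lt_mul_of_pos_right hn2 (by linarith : (0 : ℝ) < n),
      mul_le_mul_of_nonneg_left hn1.le h8]
  refine ⟨canon q, hnonneg, hp, ⟨_, hD⟩, ⟨fun B => ?_⟩⟩
  apply (h𝒞.biUnion (fun c _ =>
    (hN (2 * B + 2 * M + (C + |q 0|) / 3)).image (fun s => s - c))).subset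
  intro x hx
  obtain ⟨c, hc, hcS⟩ := hcov x
  refine Set.mem_biUnion hc ⟨x + c, ⟨hcS, ?_⟩, add_sub_cancel_right x c⟩
  have h1 := exact_add_le hp hnonneg x c
  have h3 := abs_le.mp (hD (x + c))
  have h5 := abs_le.mp (hM' c hc)
  have hx' : canon q x ≤ B := hx
  linarith

/-- **(Q3)** the descent glue: with weak Mordell–Weil, the group is finitely generated. -/
theorem fg_of_cover (q : G → ℝ) (C : ℝ)
    (hpar : ∀ x y, |q (x + y) + q (x - y) - 2 * (q x + q y)| ≤ C)
    (S 𝒞 : Set G) (h𝒞 : 𝒞.Finite) (hcov : ∀ x, ∃ c ∈ 𝒞, x + c ∈ S)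
    (C₁ : ℝ) (hpos : ∀ x ∈ S, -C₁ ≤ q x)
    (hN : ∀ B : ℝ, {x | x ∈ S ∧ q x ≤ B}.Finite)
    (hWMW : (nsmulAddMonoidHom (α := G) 2).range.FiniteIndex) : AddGroup.FG G := by
  obtain ⟨h, h0, hp, -, hNorth⟩ := exists_height_of_cover q C hpar S 𝒞 h𝒞 hcov C₁ hpos hN
  exact AddCommGroup.fg_of_descent' (C := 0) hWMW h0 (fun x y => by rw [hp]; simp)

/-- **(Q3')** the descent glue for a group `G₀` mapping injectively to the group `G` carrying
the height (e.g. `G₀ = J(ℚ)`, `G = J(K)`): weak Mordell–Weil for `G₀` and the height package on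
`G` give that `G₀` is finitely generated. -/
theorem fg_of_cover_of_injective {G₀ : Type*} [AddCommGroup G₀] (ι : G₀ →+ G)
    (hι : Function.Injective ι) (q : G → ℝ) (C : ℝ)
    (hpar : ∀ x y, |q (x + y) + q (x - y) - 2 * (q x + q y)| ≤ C)
    (S 𝒞 : Set G) (h𝒞 : 𝒞.Finite) (hcov : ∀ x, ∃ c ∈ 𝒞, x + c ∈ S)
    (C₁ : ℝ) (hpos : ∀ x ∈ S, -C₁ ≤ q x)
    (hN : ∀ B : ℝ, {x | x ∈ S ∧ q x ≤ B}.Finite)
    (hWMW : (nsmulAddMonoidHom (α := G₀) 2).range.FiniteIndex) : AddGroup.FG G₀ := by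
  obtain ⟨h, h0, hp, -, hNorth⟩ := exists_height_of_cover q C hpar S 𝒞 h𝒞 hcov C₁ hpos hN
  have hN' : Northcott (fun x : G₀ => h (ι x)) :=
    ⟨fun B => (hNorth.finite_le B).preimage hι.injOn⟩
  exact AddCommGroup.fg_of_descent' (h := fun x : G₀ => h (ι x)) (C := 0) hWMW (fun x => h0 _)
    (fun x y => by rw [map_add, map_sub, hp]; simp)

/-- The subgroup form of (Q3'). -/
theorem fg_subgroup_of_cover (G₀ : AddSubgroup G) (q : G → ℝ) (C : ℝ)
    (hpar : ∀ x y, |q (x + y) + q (x - y) - 2 * (q x + q y)| ≤ C)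
    (S 𝒞 : Set G) (h𝒞 : 𝒞.Finite) (hcov : ∀ x, ∃ c ∈ 𝒞, x + c ∈ S)
    (C₁ : ℝ) (hpos : ∀ x ∈ S, -C₁ ≤ q x)
    (hN : ∀ B : ℝ, {x | x ∈ S ∧ q x ≤ B}.Finite)
    (hWMW : (nsmulAddMonoidHom (α := ↥G₀) 2).range.FiniteIndex) : AddGroup.FG ↥G₀ :=
  fg_of_cover_of_injective G₀.subtype G₀.subtype_injective q C hpar S 𝒞 h𝒞 hcov C₁ hpos hN hWMW

end Fermat.Agent.MW.Height.QuasiQuad
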