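/-
MW / heights (helper63) — **a fixed divisor class contains an invariant divisor** (Hilbert 90 with
a rational point).  Mathlib only, abstract.

A group `Γ` acts through `ρ : Γ →* G` on a field `F` (`MulSemiringAction G F`) and on an abelian
group `Dv` of divisors.

* `exists_coboundary` : a `1`-cocycle `h : Γ → F^×` which is trivial on a finite-index subgroup
  `Γ'` whose fixed elements separate its cosets is a coboundary: `h σ * σ φ = φ`
  (Poincaré series over `Γ ⧸ Γ'` and Dedekind's independence of characters);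
* `exists_invariant_translate` : if `σ D₀ − D₀` is principal for all `σ`, `D₀` is fixed by `Γ'`,
  and there is an equivariant multiplicative "leading coefficient" `lc` (the rational point), then
  `D₀ + div φ` is `Γ`-invariant for some `φ ≠ 0`.
-/
import Mathlib

set_option autoImplicit false

namespace Fermat.Agent.MW.Height.DivDescent

variable {Γ G F : Type*} [Group Γ] [Group G] [Field F] [MulSemiringAction G F]

/-- The elements fixed by (the image of) a subgroup, as a submonoid. -/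
def fixedSubmonoid (ρ : Γ →* G) (Γ' : Subgroup Γ) : Submonoid F where
  carrier := {c | ∀ u ∈ Γ', ρ u • c = c}
  mul_mem' := fun {a b} ha hb u hu => by rw [smul_mul', ha u hu, hb u hu]
  one_mem' := fun u _ => smul_one _

/-- The character `c ↦ g c` on the fixed submonoid. -/
def charOf (ρ : Γ →* G) (Γ' : Subgroup Γ) (g : Γ) : fixedSubmonoid (F := F) ρ Γ' →* F where
  toFun c := ρ g • (c : F)
  map_one' := smul_one _
  map_mul' _ _ := smul_mul' _ _ _

/-- **Hilbert 90** for a cocycle trivial on a finite-index subgroup whose fixed elements separate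
its cosets. -/
theorem exists_coboundary (ρ : Γ →* G) (h : Γ → F) (hne : ∀ σ, h σ ≠ 0)
    (hcoc : ∀ σ τ, h (σ * τ) = h σ * ρ σ • h τ)
    (Γ' : Subgroup Γ) [Γ'.FiniteIndex] (htriv : ∀ u ∈ Γ', h u = 1)
    (hsep : ∀ σ, σ ∉ Γ' → ∃ c : F, (∀ u ∈ Γ', ρ u • c = c) ∧ ρ σ • c ≠ c) :
    ∃ φ : F, φ ≠ 0 ∧ ∀ σ, h σ * ρ σ • φ = φ := by
  classical
  have : Fintype (Γ ⧸ Γ') := Subgroup.fintypeQuotientOfFiniteIndex
  -- right multiplication by `Γ'` changes neither `h` nor the characters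
  have hmulr : ∀ (g : Γ) (u : Γ), u ∈ Γ' → h (g * u) = h g := by
    intro g u hu
    rw [hcoc, htriv u hu, smul_one, mul_one]
  have hcharr : ∀ (g : Γ) (u : Γ), u ∈ Γ' → ∀ c : fixedSubmonoid (F := F) ρ Γ',
      ρ (g * u) • (c : F) = ρ g • (c : F) := by
    intro g u hu c
    rw [map_mul, mul_smul, c.2 u hu]
  set χ : Γ ⧸ Γ' → (fixedSubmonoid (F := F) ρ Γ' →* F) := fun t => charOf ρ Γ' t.out with hχdef
  have hχ : Function.Injective χ := by
    intro t t' htt
    by_contra hne'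
    have hnot : t.out⁻¹ * t'.out ∉ Γ' := by
      intro hmem
      apply hne'
      have := QuotientGroup.eq.2 hmem
      rwa [QuotientGroup.out_eq', QuotientGroup.out_eq'] at this
    obtain ⟨c, hc, hcne⟩ := hsep _ hnot
    apply hcne
    have h1 : χ t ⟨c, hc⟩ = χ t' ⟨c, hc⟩ := by rw [htt]
    have h2 : ρ t.out • c = ρ t'.out • c := h1
    rw [map_mul, map_inv, mul_smul, ← h2, inv_smul_smul]
  have hli : LinearIndependent F (fun t : Γ ⧸ Γ' => (χ t : fixedSubmonoid (F := F) ρ Γ' → F)) :=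
    (linearIndependent_monoidHom (fixedSubmonoid (F := F) ρ Γ') F).comp χ hχ
  have hex : ∃ c : fixedSubmonoid (F := F) ρ Γ', ∑ t : Γ ⧸ Γ', h t.out * χ t c ≠ 0 := by
    by_contra hall
    push Not at hall
    have h0 : ∑ t : Γ ⧸ Γ', h t.out • (χ t : fixedSubmonoid (F := F) ρ Γ' → F) = 0 := by
      funext c
      rw [Finset.sum_apply]
      exact hall c
    have := Fintype.linearIndependent_iff.1 hli (fun t => h t.out) h0 (QuotientGroup.mk 1)
    exact hne _ this
  obtain ⟨c, hc⟩ := hex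
  refine ⟨∑ t : Γ ⧸ Γ', h t.out * χ t c, hc, fun σ => ?_⟩
  have key : ∀ t : Γ ⧸ Γ',
      h σ * ρ σ • (h t.out * χ t c) = h (σ • t).out * χ (σ • t) c := by
    intro t
    have hst : σ • t = QuotientGroup.mk (σ * t.out) := by
      conv_lhs => rw [← QuotientGroup.out_eq' t]
      rfl
    obtain ⟨u, hu⟩ := QuotientGroup.mk_out_eq_mul Γ' (σ * t.out)
    rw [hst]
    have e1 : h (QuotientGroup.mk (σ * t.out) : Γ ⧸ Γ').out = h (σ * t.out) := by
      rw [hu]; exact hmulr _ _ u.2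
    have e2 : χ (QuotientGroup.mk (σ * t.out)) c = ρ (σ * t.out) • (c : F) := by
      show ρ (QuotientGroup.mk (σ * t.out) : Γ ⧸ Γ').out • (c : F) = _
      rw [hu]; exact hcharr _ _ u.2 c
    rw [e1, e2, hcoc, smul_mul', map_mul, mul_smul, mul_assoc]
    rfl
  rw [Finset.smul_sum, Finset.mul_sum, Finset.sum_congr rfl fun t _ => key t]
  exact Fintype.sum_equiv (MulAction.toPerm σ) _ _ fun t => rfl

/-- **A fixed class contains an invariant divisor.** -/
theorem exists_invariant_translate {Dv : Type*} [AddCommGroup Dv] [DistribMulAction G Dv]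
    (ρ : Γ →* G) (dv : F → Dv)
    (hdv_mul : ∀ f g, f ≠ 0 → g ≠ 0 → dv (f * g) = dv f + dv g)
    (hdv_smul : ∀ (g : G) f, dv (g • f) = g • dv f)
    (lc : F → F) (hlc_ne : ∀ f, f ≠ 0 → lc f ≠ 0) (hlc_mul : ∀ f g, lc (f * g) = lc f * lc g)
    (hlc_smul : ∀ (g : G) f, lc (g • f) = g • lc f)
    (hlc_dv : ∀ f, f ≠ 0 → dv (lc f) = 0)
    (hconst : ∀ f, f ≠ 0 → dv f = 0 → lc f = f)
    (D₀ : Dv) (hfix : ∀ σ : Γ, ∃ g : F, g ≠ 0 ∧ dv g = ρ σ • D₀ - D₀)
    (Γ' : Subgroup Γ) [Γ'.FiniteIndex] (hΓ' : ∀ u ∈ Γ', ρ u • D₀ = D₀)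
    (hsep : ∀ σ, σ ∉ Γ' → ∃ c : F, (∀ u ∈ Γ', ρ u • c = c) ∧ ρ σ • c ≠ c) :
    ∃ φ : F, φ ≠ 0 ∧ ∀ σ : Γ, ρ σ • (D₀ + dv φ) = D₀ + dv φ := by
  classical
  choose g hg_ne hg_dv using hfix
  -- `lc` is idempotent on nonzero elements
  have hlclc : ∀ f, f ≠ 0 → lc (lc f) = lc f := fun f hf =>
    hconst _ (hlc_ne f hf) (hlc_dv f hf)
  -- normalised functions
  set h : Γ → F := fun σ => g σ / lc (g σ) with hdef
  have hne : ∀ σ, h σ ≠ 0 := fun σ => div_ne_zero (hg_ne σ) (hlc_ne _ (hg_ne σ))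
  have hmul : ∀ σ, h σ * lc (g σ) = g σ := fun σ => div_mul_cancel₀ _ (hlc_ne _ (hg_ne σ))
  have hlc1 : ∀ σ, lc (h σ) = 1 := by
    intro σ
    have h1 := congrArg lc (hmul σ)
    rw [hlc_mul, hlclc _ (hg_ne σ)] at h1
    exact mul_right_cancel₀ (hlc_ne _ (hg_ne σ)) (h1.trans (one_mul _).symm)
  have hdvh : ∀ σ, dv (h σ) = ρ σ • D₀ - D₀ := by
    intro σ
    have h1 := congrArg dv (hmul σ)
    rw [hdv_mul _ _ (hne σ) (hlc_ne _ (hg_ne σ)), hlc_dv _ (hg_ne σ), add_zero] at h1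
    rw [h1, hg_dv]
  -- uniqueness of normalised functions with a given divisor
  have huniq : ∀ a b : F, a ≠ 0 → b ≠ 0 → dv a = dv b → lc a = 1 → lc b = 1 → a = b := by
    intro a b ha hb hab hla hlb
    have hr : a / b ≠ 0 := div_ne_zero ha hb
    have e : a / b * b = a := div_mul_cancel₀ _ hb
    have h1 := congrArg dv e
    rw [hdv_mul _ _ hr hb, hab] at h1
    have h2 : dv (a / b) = 0 := by
      have := sub_eq_zero.2 h1
      rwa [add_sub_cancel_right] at this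
    have h3 := hconst _ hr h2
    have h4 := congrArg lc e
    rw [hlc_mul, h3, hlb, mul_one, hla] at h4
    rw [← e, h4, one_mul]
  have hsm_ne : ∀ (x : G) (f : F), f ≠ 0 → x • f ≠ 0 := fun x f hf =>
    (smul_ne_zero_iff_ne x).2 hf
  have hcoc : ∀ σ τ, h (σ * τ) = h σ * ρ σ • h τ := by
    intro σ τ
    refine huniq _ _ (hne _) (mul_ne_zero (hne σ) (hsm_ne _ _ (hne τ))) ?_ (hlc1 _) ?_
    · rw [hdv_mul _ _ (hne σ) (hsm_ne _ _ (hne τ)), hdv_smul, hdvh, hdvh, hdvh, map_mul,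
        mul_smul, smul_sub]
      abel
    · rw [hlc_mul, hlc_smul, hlc1, hlc1, smul_one, mul_one]
  have htriv : ∀ u ∈ Γ', h u = 1 := by
    intro u hu
    have h1 : dv (h u) = 0 := by rw [hdvh, hΓ' u hu, sub_self]
    rw [← hconst _ (hne u) h1, hlc1]
  obtain ⟨φ, hφ, hφσ⟩ := exists_coboundary ρ h hne hcoc Γ' htriv hsep
  refine ⟨φ, hφ, fun σ => ?_⟩
  have h1 := congrArg dv (hφσ σ)
  rw [hdv_mul _ _ (hne σ) (hsm_ne _ _ hφ), hdvh, hdv_smul] at h1
  rw [smul_add]
  calc ρ σ • D₀ + ρ σ • dv φ = D₀ + (ρ σ • D₀ - D₀ + ρ σ • dv φ) := by abel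
    _ = D₀ + dv φ := by rw [h1]

end Fermat.Agent.MW.Height.DivDescent
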