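/-
MW / heights — Gauss–Mahler on the projective line in DIVISOR form (Mathlib + GaussMahler).

For an effective divisor `D : P →₀ ℕ` on a type of points `P` with values `τ : P → K`, the
polynomial `∏ R ∈ D.support, (X - C (τ R)) ^ D R` is `rootPoly (divRoots τ D)`; the two-sided
bounds of `GaussMahler.lean` are restated for it, also in the packaged form

  `∑ k : Fin (M + 1), C (x k) * X ^ k = C c * ∏ R ∈ D.support, (X - C (τ R)) ^ D R`
    ⟹  `⨆ k, v (x k)  ≍  v c * ∏_R max 1 (v (τ R)) ^ D R`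

(the shape of the norm form of a function with divisor of zeros `D`).
-/
import Mathlib
import Fermat.Agent.MW.Height.GaussMahler

set_option autoImplicit false
set_option linter.unusedSectionVars false

namespace Fermat.Agent.MW.Height.GaussMahler

open Polynomial

variable {K : Type*} [Field K] {P : Type*}

theorem rootPoly_replicate (n : ℕ) (r : K) :
    rootPoly (Multiset.replicate n r) = (X - C r) ^ n := by
  simp [rootPoly]

/-- The multiset of values of `τ` on the divisor `D`, with multiplicity. -/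
noncomputable def divRoots (τ : P → K) (D : P →₀ ℕ) : Multiset K :=
  ∑ R ∈ D.support, Multiset.replicate (D R) (τ R)

theorem rootPoly_finset_sum {ι : Type*} (s : Finset ι) (f : ι → Multiset K) :
    rootPoly (∑ i ∈ s, f i) = ∏ i ∈ s, rootPoly (f i) := by
  classical
  induction s using Finset.induction_on with
  | empty => simp
  | insert i s hi ih => rw [Finset.sum_insert hi, Finset.prod_insert hi, rootPoly_add, ih]

theorem rootPoly_divRoots (τ : P → K) (D : P →₀ ℕ) :
    rootPoly (divRoots τ D) = ∏ R ∈ D.support, (X - C (τ R)) ^ D R := by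
  rw [divRoots, rootPoly_finset_sum]
  exact Finset.prod_congr rfl fun R _ => rootPoly_replicate _ _

theorem card_divRoots (τ : P → K) (D : P →₀ ℕ) :
    Multiset.card (divRoots τ D) = D.sum fun _ a => a := by
  simp [divRoots, Finsupp.sum]

theorem map_finset_sum_multiset {ι β γ : Type*} (s : Finset ι) (f : ι → Multiset β)
    (g : β → γ) : (∑ i ∈ s, f i).map g = ∑ i ∈ s, (f i).map g := by
  classical
  induction s using Finset.induction_on with
  | empty => simp
  | insert i s hi ih => rw [Finset.sum_insert hi, Finset.sum_insert hi, Multiset.map_add, ih]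

theorem prod_finset_sum_multiset {ι : Type*} (s : Finset ι) (f : ι → Multiset ℝ) :
    (∑ i ∈ s, f i).prod = ∏ i ∈ s, (f i).prod := by
  classical
  induction s using Finset.induction_on with
  | empty => simp
  | insert i s hi ih => rw [Finset.sum_insert hi, Finset.prod_insert hi, Multiset.prod_add, ih]

theorem sum_finset_sum_multiset {ι : Type*} (s : Finset ι) (f : ι → Multiset ℝ) :
    (∑ i ∈ s, f i).sum = ∑ i ∈ s, (f i).sum := by
  classical
  induction s using Finset.induction_on with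
  | empty => simp
  | insert i s hi ih => rw [Finset.sum_insert hi, Finset.sum_insert hi, Multiset.sum_add, ih]

theorem prod_map_divRoots (g : K → ℝ) (τ : P → K) (D : P →₀ ℕ) :
    ((divRoots τ D).map g).prod = D.prod fun R n => g (τ R) ^ n := by
  rw [divRoots, map_finset_sum_multiset, prod_finset_sum_multiset, Finsupp.prod]
  refine Finset.prod_congr rfl fun R _ => ?_
  simp

theorem sum_map_divRoots (g : K → ℝ) (τ : P → K) (D : P →₀ ℕ) :
    ((divRoots τ D).map g).sum = D.sum fun R n => (n : ℝ) * g (τ R) := by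
  rw [divRoots, map_finset_sum_multiset, sum_finset_sum_multiset, Finsupp.sum]
  refine Finset.sum_congr rfl fun R _ => ?_
  simp

section Local

variable (v : AbsoluteValue K ℝ)

/-- Upper bound for the coefficients of the polynomial of a divisor. -/
theorem coeff_divPoly_le (τ : P → K) (D : P →₀ ℕ) (k : ℕ) :
    v ((∏ R ∈ D.support, (X - C (τ R)) ^ D R).coeff k)
      ≤ kp v ^ (D.sum fun _ a => a) * D.prod fun R n => max 1 (v (τ R)) ^ n := by
  have h := coeff_rootPoly_le_kp v (divRoots τ D) k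
  rwa [rootPoly_divRoots, card_divRoots, prod_map_divRoots (fun r => max 1 (v r))] at h

/-- Lower bound: some coefficient of the polynomial of a divisor is large. -/
theorem exists_coeff_divPoly_ge (τ : P → K) (D : P →₀ ℕ) :
    ∃ k ≤ D.sum fun _ a => a, (D.prod fun R n => max 1 (v (τ R)) ^ n)
      ≤ kp v ^ ((D.sum fun _ a => a) ^ 2)
        * v ((∏ R ∈ D.support, (X - C (τ R)) ^ D R).coeff k) := by
  have h := exists_coeff_ge_kp v (divRoots τ D)
  rwa [rootPoly_divRoots, card_divRoots, prod_map_divRoots (fun r => max 1 (v r))] at h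

theorem coeff_sum_C_mul_X_pow {M : ℕ} (x : Fin (M + 1) → K) (j : ℕ) :
    (∑ k : Fin (M + 1), C (x k) * X ^ (k : ℕ)).coeff j
      = if h : j < M + 1 then x ⟨j, h⟩ else 0 := by
  rw [finsetSum_coeff]
  simp only [coeff_C_mul, coeff_X_pow]
  split_ifs with h
  · rw [Finset.sum_eq_single ⟨j, h⟩]
    · simp
    · intro b _ hb
      have : j ≠ (b : ℕ) := fun e => hb (Fin.ext e.symm)
      simp [this]
    · simp
  · refine Finset.sum_eq_zero fun b _ => ?_
    have : j ≠ (b : ℕ) := fun e => h (e ▸ b.isLt)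
    simp [this]

theorem coeff_sum_C_mul_X_pow_fin {M : ℕ} (x : Fin (M + 1) → K) (j : Fin (M + 1)) :
    (∑ k : Fin (M + 1), C (x k) * X ^ (k : ℕ)).coeff j = x j := by
  rw [coeff_sum_C_mul_X_pow, dif_pos j.isLt]

/-- **Packaged upper bound**: if `∑ k, x k X^k = c · ∏_R (X - τ R) ^ D R`, then
`max_k |x k| ≤ κ ^ deg D · |c| · ∏_R max 1 |τ R| ^ D R`. -/
theorem iSup_le_of_eq_divPoly {M : ℕ} (x : Fin (M + 1) → K) (c : K) (τ : P → K) (D : P →₀ ℕ)
    (h : ∑ k : Fin (M + 1), C (x k) * X ^ (k : ℕ)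
      = C c * ∏ R ∈ D.support, (X - C (τ R)) ^ D R) :
    ⨆ k, v (x k) ≤ kp v ^ (D.sum fun _ a => a)
      * (v c * D.prod fun R n => max 1 (v (τ R)) ^ n) := by
  refine ciSup_le fun k => ?_
  have h1 := congrArg (fun Q : K[X] => Q.coeff (k : ℕ)) h
  simp only [coeff_sum_C_mul_X_pow_fin, coeff_C_mul] at h1
  rw [h1, v.map_mul]
  calc v c * v ((∏ R ∈ D.support, (X - C (τ R)) ^ D R).coeff k)
      ≤ v c * (kp v ^ (D.sum fun _ a => a) * D.prod fun R n => max 1 (v (τ R)) ^ n) :=
        mul_le_mul_of_nonneg_left (coeff_divPoly_le v τ D k) (v.nonneg c)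
    _ = kp v ^ (D.sum fun _ a => a) * (v c * D.prod fun R n => max 1 (v (τ R)) ^ n) := by ring

/-- **Packaged lower bound**: if `∑ k, x k X^k = c · ∏_R (X - τ R) ^ D R` and `deg D ≤ M`, then
`|c| · ∏_R max 1 |τ R| ^ D R ≤ κ ^ (deg D ^ 2) · max_k |x k|`. -/
theorem le_iSup_of_eq_divPoly {M : ℕ} (x : Fin (M + 1) → K) (c : K) (τ : P → K) (D : P →₀ ℕ)
    (hD : (D.sum fun _ a => a) ≤ M)
    (h : ∑ k : Fin (M + 1), C (x k) * X ^ (k : ℕ)
      = C c * ∏ R ∈ D.support, (X - C (τ R)) ^ D R) :
    v c * (D.prod fun R n => max 1 (v (τ R)) ^ n)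
      ≤ kp v ^ ((D.sum fun _ a => a) ^ 2) * ⨆ k, v (x k) := by
  obtain ⟨k, hk, hge⟩ := exists_coeff_divPoly_ge v τ D
  have hk' : k < M + 1 := by omega
  have h1 := congrArg (fun Q : K[X] => Q.coeff k) h
  simp only [coeff_C_mul] at h1
  rw [coeff_sum_C_mul_X_pow, dif_pos hk'] at h1
  have h2 : v (x ⟨k, hk'⟩) ≤ ⨆ k, v (x k) :=
    le_ciSup (f := fun k : Fin (M + 1) => v (x k)) (Set.finite_range _).bddAbove ⟨k, hk'⟩
  calc v c * (D.prod fun R n => max 1 (v (τ R)) ^ n)
      ≤ v c * (kp v ^ ((D.sum fun _ a => a) ^ 2)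
          * v ((∏ R ∈ D.support, (X - C (τ R)) ^ D R).coeff k)) :=
        mul_le_mul_of_nonneg_left hge (v.nonneg c)
    _ = kp v ^ ((D.sum fun _ a => a) ^ 2) * v (x ⟨k, hk'⟩) := by
        rw [h1, v.map_mul]; ring
    _ ≤ kp v ^ ((D.sum fun _ a => a) ^ 2) * ⨆ k, v (x k) :=
        mul_le_mul_of_nonneg_left h2 (pow_nonneg (kp_pos v).le _)

end Local

end Fermat.Agent.MW.Height.GaussMahler
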