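/-
MW / Height / Join  (helper9)

The *join form* of two forms `G, H ∈ K[x_j : j ∈ ι]`:

  `joinForm G H ∈ K[a_j, b_j]`  :=  Resultant_T ( G(b·T − a), H(b·T − a) ).

It is a universal polynomial in the coefficients of `G` and `H` (so it is defined over the
field of definition of `G` and `H` — no Galois descent), it is bi-multiplicative, and if
`G = c·∏ ⟨x_i, ·⟩`, `H = c'·∏ ⟨y_k, ·⟩` split into linear forms over an extension, then

  `joinForm G H = c^e c'^d ∏_{i,k} ( ⟨a,x_i⟩⟨b,y_k⟩ − ⟨b,x_i⟩⟨a,y_k⟩ )`,

the product of the bilinear forms whose coefficients are the `2 × 2` minors of `(x_i, y_k)`.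
-/
import Mathlib

set_option autoImplicit false

namespace Fermat.Agent.MW.Height.Form

noncomputable section

open Polynomial

variable {K : Type*} [Field K] {ι : Type*}

/-- The pencil substitution `x_j ↦ b_j·T − a_j`, where `a_j = X (inl j)`, `b_j = X (inr j)`. -/
def pencil : MvPolynomial ι K →ₐ[K] (MvPolynomial (ι ⊕ ι) K)[X] :=
  MvPolynomial.aeval (fun j => C (MvPolynomial.X (Sum.inr j)) * X - C (MvPolynomial.X (Sum.inl j)))

@[simp]
theorem pencil_X (j : ι) :
    pencil (MvPolynomial.X j : MvPolynomial ι K)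
      = C (MvPolynomial.X (Sum.inr j)) * X - C (MvPolynomial.X (Sum.inl j)) := by
  simp [pencil]

@[simp]
theorem pencil_C (c : K) :
    pencil (MvPolynomial.C c : MvPolynomial ι K) = C (MvPolynomial.C c) := by
  simp [pencil]

/-- A left inverse of `pencil`: `T ↦ 0`, `a_j ↦ −x_j`, `b_j ↦ 0`. -/
def unpencil : (MvPolynomial (ι ⊕ ι) K)[X] →+* MvPolynomial ι K :=
  Polynomial.eval₂RingHom
    ((MvPolynomial.aeval (Sum.elim (fun j => -(MvPolynomial.X j : MvPolynomial ι K))
      (fun _ => 0)) : MvPolynomial (ι ⊕ ι) K →ₐ[K] MvPolynomial ι K) : _ →+* _) 0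

theorem unpencil_pencil (G : MvPolynomial ι K) : unpencil (pencil G) = G := by
  have : (unpencil.comp (pencil : MvPolynomial ι K →ₐ[K] _).toRingHom)
      = RingHom.id (MvPolynomial ι K) := by
    apply MvPolynomial.ringHom_ext
    · intro c
      simp [unpencil]
    · intro j
      simp [unpencil]
  exact congrFun (congrArg DFunLike.coe this) G

theorem pencil_injective : Function.Injective (pencil : MvPolynomial ι K → _) :=
  Function.LeftInverse.injective unpencil_pencil

theorem pencil_ne_zero {G : MvPolynomial ι K} (hG : G ≠ 0) : pencil G ≠ 0 := fun h =>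
  hG (pencil_injective (by rw [h, map_zero]))

/-- The **join form** of two forms. -/
def joinForm (G H : MvPolynomial ι K) : MvPolynomial (ι ⊕ ι) K :=
  resultant (pencil G) (pencil H)

theorem joinForm_def (G H : MvPolynomial ι K) :
    joinForm G H = resultant (pencil G) (pencil H) (pencil G).natDegree (pencil H).natDegree :=
  rfl

/-- Multiplicativity in the first argument. -/
theorem joinForm_mul_left {G₁ G₂ : MvPolynomial ι K} (h₁ : G₁ ≠ 0) (h₂ : G₂ ≠ 0)
    (H : MvPolynomial ι K) :
    joinForm (G₁ * G₂) H = joinForm G₁ H * joinForm G₂ H := by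
  rw [joinForm_def, joinForm_def, joinForm_def, map_mul,
    natDegree_mul (pencil_ne_zero h₁) (pencil_ne_zero h₂)]
  exact resultant_mul_left _ _ _ _ le_rfl

/-- Multiplicativity in the second argument. -/
theorem joinForm_mul_right (G : MvPolynomial ι K) {H₁ H₂ : MvPolynomial ι K} (h₁ : H₁ ≠ 0)
    (h₂ : H₂ ≠ 0) :
    joinForm G (H₁ * H₂) = joinForm G H₁ * joinForm G H₂ := by
  rw [joinForm_def, joinForm_def, joinForm_def, map_mul,
    natDegree_mul (pencil_ne_zero h₁) (pencil_ne_zero h₂)]
  exact resultant_mul_right _ _ _ _ le_rfl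

/-- Symmetry up to sign. -/
theorem joinForm_comm (G H : MvPolynomial ι K) :
    joinForm G H = (-1) ^ ((pencil G).natDegree * (pencil H).natDegree) * joinForm H G :=
  resultant_comm _ _ _ _

theorem pencil_C_mul (c : K) (G : MvPolynomial ι K) :
    pencil (MvPolynomial.C c * G) = C (MvPolynomial.C c) * pencil G := by
  rw [map_mul, pencil_C]

theorem natDegree_pencil_C_mul {c : K} (hc : c ≠ 0) (G : MvPolynomial ι K) :
    (pencil (MvPolynomial.C c * G)).natDegree = (pencil G).natDegree := by
  rw [pencil_C_mul]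
  exact natDegree_C_mul (by simpa using hc)

theorem joinForm_C_mul_left {c : K} (hc : c ≠ 0) (G H : MvPolynomial ι K) :
    joinForm (MvPolynomial.C c * G) H
      = MvPolynomial.C c ^ (pencil H).natDegree * joinForm G H := by
  rw [joinForm_def, joinForm_def, natDegree_pencil_C_mul hc, pencil_C_mul]
  exact resultant_C_mul_left _ _ _ _ _

theorem joinForm_C_mul_right {c : K} (hc : c ≠ 0) (G H : MvPolynomial ι K) :
    joinForm G (MvPolynomial.C c * H)
      = MvPolynomial.C c ^ (pencil G).natDegree * joinForm G H := by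
  rw [joinForm_def, joinForm_def, natDegree_pencil_C_mul hc, pencil_C_mul]
  exact resultant_C_mul_right _ _ _ _ _

/-! ### Base change -/

section BaseChange

variable {L : Type*} [Field L] (φ : K →+* L)

theorem pencil_map (G : MvPolynomial ι K) :
    pencil (MvPolynomial.map φ G) = (pencil G).map (MvPolynomial.map φ) := by
  have : ((pencil : MvPolynomial ι L →ₐ[L] _).toRingHom.comp (MvPolynomial.map φ))
      = (Polynomial.mapRingHom (MvPolynomial.map φ)).comp
          (pencil : MvPolynomial ι K →ₐ[K] _).toRingHom := by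
    apply MvPolynomial.ringHom_ext
    · intro c
      simp
    · intro j
      simp
  exact congrFun (congrArg DFunLike.coe this) G

theorem joinForm_map (G H : MvPolynomial ι K) :
    joinForm (MvPolynomial.map φ G) (MvPolynomial.map φ H)
      = MvPolynomial.map φ (joinForm G H) := by
  have hinj : Function.Injective (MvPolynomial.map φ : MvPolynomial (ι ⊕ ι) K → _) :=
    MvPolynomial.map_injective φ φ.injective
  rw [joinForm_def, joinForm_def, pencil_map, pencil_map,
    natDegree_map_eq_of_injective hinj, natDegree_map_eq_of_injective hinj]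
  exact resultant_map_map _ _ _ _ _

end BaseChange

/-! ### Linear forms and products of linear forms -/

section Linear

variable [Fintype ι]

/-- The linear form `⟨x, ·⟩ = ∑ x_j X_j`. -/
def linForm (x : ι → K) : MvPolynomial ι K := ∑ j, MvPolynomial.C (x j) * MvPolynomial.X j

/-- `⟨a, x⟩ = ∑ x_j a_j`. -/
def pairA (x : ι → K) : MvPolynomial (ι ⊕ ι) K :=
  ∑ j, MvPolynomial.C (x j) * MvPolynomial.X (Sum.inl j)

/-- `⟨b, x⟩ = ∑ x_j b_j`. -/
def pairB (x : ι → K) : MvPolynomial (ι ⊕ ι) K :=
  ∑ j, MvPolynomial.C (x j) * MvPolynomial.X (Sum.inr j)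

/-- The bilinear form `⟨a,x⟩⟨b,y⟩ − ⟨b,x⟩⟨a,y⟩ = ∑_{j,l} (x_j y_l − x_l y_j) a_j b_l`, whose
coefficients are the `2 × 2` minors of `(x, y)`. -/
def minorForm (x y : ι → K) : MvPolynomial (ι ⊕ ι) K := pairA x * pairB y - pairB x * pairA y

theorem pencil_linForm (x : ι → K) :
    pencil (linForm x) = C (pairB x) * X - C (pairA x) := by
  simp only [linForm, pairA, pairB, map_sum, map_mul, pencil_C, pencil_X, Finset.sum_mul]
  rw [← Finset.sum_sub_distrib]
  refine Finset.sum_congr rfl fun j _ => ?_
  ring

theorem coeff_pairB (x : ι → K) (j : ι) :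
    MvPolynomial.coeff (Finsupp.single (Sum.inr j) 1) (pairB x) = x j := by
  classical
  simp only [pairB, MvPolynomial.coeff_sum, MvPolynomial.coeff_C_mul, MvPolynomial.coeff_X]
  rw [Finset.sum_eq_single j]
  · simp
  · intro l _ hl
    have : ¬ (Finsupp.single (Sum.inr l : ι ⊕ ι) 1 = Finsupp.single (Sum.inr j) 1) := by
      intro h
      have := Finsupp.single_left_injective (one_ne_zero) h
      exact hl (Sum.inr_injective this)
    simp [this]
  · simp

theorem pairB_ne_zero {x : ι → K} (hx : x ≠ 0) : pairB x ≠ 0 := by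
  obtain ⟨j, hj⟩ := Function.ne_iff.mp hx
  intro h
  have := coeff_pairB x j
  rw [h, MvPolynomial.coeff_zero] at this
  exact hj this.symm

theorem natDegree_pencil_linForm {x : ι → K} (hx : x ≠ 0) :
    (pencil (linForm x)).natDegree = 1 := by
  rw [pencil_linForm, sub_eq_add_neg, ← C_neg]
  exact natDegree_linear (pairB_ne_zero hx)

theorem resultant_linear {R : Type*} [CommRing R] (a b c d : R) :
    resultant (C b * X - C a) (C d * X - C c) 1 1 = a * d - b * c := by
  have h0 : (0 : Fin (1 + 1)) = Fin.castAdd 1 (0 : Fin 1) := rfl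
  have h1 : (1 : Fin (1 + 1)) = Fin.natAdd 1 (0 : Fin 1) := rfl
  rw [resultant, Matrix.det_fin_two]
  simp only [sylvester, Matrix.of_apply]
  rw [h0, h1]
  simp only [Fin.addCases_left, Fin.addCases_right]
  simp
  ring

/-- The join form of two linear forms is the minor form. -/
theorem joinForm_linForm {x y : ι → K} (hx : x ≠ 0) (hy : y ≠ 0) :
    joinForm (linForm x) (linForm y) = minorForm x y := by
  rw [joinForm_def, natDegree_pencil_linForm hx, natDegree_pencil_linForm hy, pencil_linForm,
    pencil_linForm, resultant_linear, minorForm]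

theorem linForm_ne_zero {x : ι → K} (hx : x ≠ 0) : linForm x ≠ 0 := by
  intro h
  have := natDegree_pencil_linForm hx
  rw [h, map_zero, natDegree_zero] at this
  exact zero_ne_one this

theorem prod_linForm_ne_zero {α : Type*} (s : Finset α) {x : α → ι → K}
    (hx : ∀ i ∈ s, x i ≠ 0) : ∏ i ∈ s, linForm (x i) ≠ 0 :=
  Finset.prod_ne_zero_iff.mpr fun i hi => linForm_ne_zero (hx i hi)

/-- The join form of two products of linear forms is the product of the minor forms. -/
theorem joinForm_prod_linForm {α β : Type*} (s : Finset α) (t : Finset β) {x : α → ι → K}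
    {y : β → ι → K} (hx : ∀ i ∈ s, x i ≠ 0) (hy : ∀ k ∈ t, y k ≠ 0) :
    joinForm (∏ i ∈ s, linForm (x i)) (∏ k ∈ t, linForm (y k))
      = ∏ i ∈ s, ∏ k ∈ t, minorForm (x i) (y k) := by
  classical
  induction s using Finset.induction with
  | empty =>
    simp only [Finset.prod_empty]
    rw [joinForm_def]
    have : (pencil (1 : MvPolynomial ι K)) = 1 := map_one _
    rw [this]
    simp
  | insert i s his IH =>
    have hx' : ∀ i ∈ s, x i ≠ 0 := fun j hj => hx j (Finset.mem_insert_of_mem hj)
    have hxi : x i ≠ 0 := hx i (Finset.mem_insert_self i s)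
    rw [Finset.prod_insert his, Finset.prod_insert his,
      joinForm_mul_left (linForm_ne_zero hxi) (prod_linForm_ne_zero s hx'), IH hx']
    congr 1
    -- one linear form against a product
    clear IH
    induction t using Finset.induction with
    | empty =>
      simp only [Finset.prod_empty]
      rw [joinForm_def]
      have : (pencil (1 : MvPolynomial ι K)) = 1 := map_one _
      rw [this]
      simp
    | insert k t hkt IH2 =>
      have hy' : ∀ k ∈ t, y k ≠ 0 := fun j hj => hy j (Finset.mem_insert_of_mem hj)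
      have hyk : y k ≠ 0 := hy k (Finset.mem_insert_self k t)
      rw [Finset.prod_insert hkt, Finset.prod_insert hkt,
        joinForm_mul_right _ (linForm_ne_zero hyk) (prod_linForm_ne_zero t hy'), IH2 hy',
        joinForm_linForm hxi hyk]

/-! ### Homogeneity and non-vanishing of the minor form -/

theorem isHomogeneous_linForm (x : ι → K) : (linForm x).IsHomogeneous 1 :=
  MvPolynomial.IsHomogeneous.sum _ _ _ fun j _ => MvPolynomial.isHomogeneous_C_mul_X _ _

theorem isHomogeneous_pairA (x : ι → K) : (pairA x).IsHomogeneous 1 :=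
  MvPolynomial.IsHomogeneous.sum _ _ _ fun j _ => MvPolynomial.isHomogeneous_C_mul_X _ _

theorem isHomogeneous_pairB (x : ι → K) : (pairB x).IsHomogeneous 1 :=
  MvPolynomial.IsHomogeneous.sum _ _ _ fun j _ => MvPolynomial.isHomogeneous_C_mul_X _ _

theorem isHomogeneous_minorForm (x y : ι → K) : (minorForm x y).IsHomogeneous 2 := by
  have h1 : (pairA x * pairB y).IsHomogeneous (1 + 1) :=
    (isHomogeneous_pairA x).mul (isHomogeneous_pairB y)
  have h2 : (pairB x * pairA y).IsHomogeneous (1 + 1) :=
    (isHomogeneous_pairB x).mul (isHomogeneous_pairA y)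
  exact (MvPolynomial.homogeneousSubmodule (ι ⊕ ι) K 2).sub_mem h1 h2

/-- Evaluation of the minor form at `a = e_j`, `b = e_l` is the `(j,l)` minor. -/
theorem eval_minorForm [DecidableEq ι] (x y : ι → K) (j l : ι) :
    MvPolynomial.eval (Sum.elim (fun i => if i = j then (1 : K) else 0)
      (fun i => if i = l then (1 : K) else 0)) (minorForm x y) = x j * y l - x l * y j := by
  simp [minorForm, pairA, pairB]

theorem minorForm_ne_zero {x y : ι → K} {j l : ι} (h : x j * y l - x l * y j ≠ 0) :
    minorForm x y ≠ 0 := by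
  classical
  intro h0
  apply h
  rw [← eval_minorForm x y j l, h0, map_zero]

end Linear

/-! ### Forms that split into linear forms over an extension ("Chow forms") -/

section Chow

variable [Fintype ι] (L : Type*) [Field L] [Algebra K L]

/-- `G` splits over `L` as a nonzero constant times the product of the linear forms
`⟨x_i, ·⟩`, `i ∈ s` (all `x_i ≠ 0`). -/
def IsChow (G : MvPolynomial ι K) {α : Type*} (s : Finset α) (x : α → ι → L) : Prop :=
  (∀ i ∈ s, x i ≠ 0) ∧ ∃ c : L, c ≠ 0 ∧
    MvPolynomial.map (algebraMap K L) G = MvPolynomial.C c * ∏ i ∈ s, linForm (x i)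

variable {L}

theorem isHomogeneous_of_map {σ : Type*} {P : MvPolynomial σ K} {n : ℕ}
    (h : (MvPolynomial.map (algebraMap K L) P).IsHomogeneous n) : P.IsHomogeneous n := by
  intro e he
  apply h
  rw [MvPolynomial.coeff_map]
  exact fun h0 => he ((algebraMap K L).injective (by rw [h0, map_zero]))

theorem IsChow.ne_zero {G : MvPolynomial ι K} {α : Type*} {s : Finset α} {x : α → ι → L}
    (h : IsChow L G s x) : G ≠ 0 := by
  obtain ⟨hx, c, hc, hG⟩ := h
  intro h0
  rw [h0, map_zero] at hG
  exact mul_ne_zero (by simpa using hc) (prod_linForm_ne_zero s hx) hG.symm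

theorem IsChow.isHomogeneous {G : MvPolynomial ι K} {α : Type*} {s : Finset α}
    {x : α → ι → L} (h : IsChow L G s x) : G.IsHomogeneous s.card := by
  obtain ⟨hx, c, hc, hG⟩ := h
  apply isHomogeneous_of_map (L := L)
  rw [hG]
  have := MvPolynomial.IsHomogeneous.prod s (fun i => linForm (x i)) (fun _ => 1)
    fun i _ => isHomogeneous_linForm (x i)
  simp only [Finset.sum_const, smul_eq_mul, mul_one] at this
  exact MvPolynomial.IsHomogeneous.C_mul this c

/-- The join form of two Chow forms is, over `L`, a nonzero constant times the product of the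
minor forms of all pairs of points. -/
theorem IsChow.map_joinForm {G H : MvPolynomial ι K} {α β : Type*} {s : Finset α}
    {t : Finset β} {x : α → ι → L} {y : β → ι → L} (hG : IsChow L G s x)
    (hH : IsChow L H t y) :
    ∃ c : L, c ≠ 0 ∧ MvPolynomial.map (algebraMap K L) (joinForm G H)
      = MvPolynomial.C c * ∏ i ∈ s, ∏ k ∈ t, minorForm (x i) (y k) := by
  obtain ⟨hx, c, hc, hG'⟩ := hG
  obtain ⟨hy, c', hc', hH'⟩ := hH
  rw [← joinForm_map, hG', hH', joinForm_C_mul_left hc, joinForm_C_mul_right hc',
    joinForm_prod_linForm s t hx hy, ← mul_assoc, ← map_pow, ← map_pow, ← map_mul]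
  exact ⟨_, mul_ne_zero (pow_ne_zero _ hc) (pow_ne_zero _ hc'), rfl⟩

theorem IsChow.joinForm_isHomogeneous {G H : MvPolynomial ι K} {α β : Type*} {s : Finset α}
    {t : Finset β} {x : α → ι → L} {y : β → ι → L} (hG : IsChow L G s x)
    (hH : IsChow L H t y) : (joinForm G H).IsHomogeneous (2 * (s.card * t.card)) := by
  obtain ⟨c, hc, h⟩ := hG.map_joinForm hH
  apply isHomogeneous_of_map (L := L)
  rw [h]
  have h1 : ∀ i ∈ s, (∏ k ∈ t, minorForm (x i) (y k)).IsHomogeneous (2 * t.card) := by
    intro i _
    have := MvPolynomial.IsHomogeneous.prod t (fun k => minorForm (x i) (y k)) (fun _ => 2)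
      fun k _ => isHomogeneous_minorForm (x i) (y k)
    simp only [Finset.sum_const, smul_eq_mul] at this
    rwa [mul_comm]
  have h2 := MvPolynomial.IsHomogeneous.prod s (fun i => ∏ k ∈ t, minorForm (x i) (y k))
    (fun _ => 2 * t.card) h1
  simp only [Finset.sum_const, smul_eq_mul] at h2
  have : s.card * (2 * t.card) = 2 * (s.card * t.card) := by ring
  rw [this] at h2
  exact MvPolynomial.IsHomogeneous.C_mul h2 c

/-- The join form of two Chow forms is nonzero as soon as no point of the first is
proportional to a point of the second (witnessed by a nonzero `2 × 2` minor). -/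
theorem IsChow.joinForm_ne_zero {G H : MvPolynomial ι K} {α β : Type*} {s : Finset α}
    {t : Finset β} {x : α → ι → L} {y : β → ι → L} (hG : IsChow L G s x)
    (hH : IsChow L H t y)
    (hdisj : ∀ i ∈ s, ∀ k ∈ t, ∃ j l, x i j * y k l - x i l * y k j ≠ 0) :
    joinForm G H ≠ 0 := by
  obtain ⟨c, hc, h⟩ := hG.map_joinForm hH
  intro h0
  rw [h0, map_zero] at h
  refine mul_ne_zero (by simpa using hc) ?_ h.symm
  refine Finset.prod_ne_zero_iff.mpr fun i hi => Finset.prod_ne_zero_iff.mpr fun k hk => ?_
  obtain ⟨j, l, hjl⟩ := hdisj i hi k hk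
  exact minorForm_ne_zero hjl

/-- Products of Chow forms are Chow forms. -/
theorem IsChow.mul {G H : MvPolynomial ι K} {α β : Type*} {s : Finset α}
    {t : Finset β} {x : α → ι → L} {y : β → ι → L} (hG : IsChow L G s x)
    (hH : IsChow L H t y) : IsChow L (G * H) (s.disjSum t) (Sum.elim x y) := by
  obtain ⟨hx, c, hc, hG'⟩ := hG
  obtain ⟨hy, c', hc', hH'⟩ := hH
  refine ⟨?_, c * c', mul_ne_zero hc hc', ?_⟩
  · intro i hi
    rcases Finset.mem_disjSum.mp hi with ⟨a, ha, rfl⟩ | ⟨b, hb, rfl⟩
    · exact hx a ha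
    · exact hy b hb
  · rw [map_mul, hG', hH', Finset.prod_disjSum, map_mul]
    simp only [Sum.elim_inl, Sum.elim_inr]
    ring

end Chow

end

end Fermat.Agent.MW.Height.Form
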