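/-
MW / Height / Kronecker  (helper9)

The Kronecker substitution `X_s ↦ X ^ (D ^ index s)` from `MvPolynomial σ R` to `R[X]`
(`σ` a fintype, with an arbitrary fixed enumeration).  On polynomials of degree `< D` in each
variable (`DegLT D P`) it is a bijection on coefficients.
-/
import Mathlib

set_option autoImplicit false

namespace Fermat.Agent.MW.Height.Form

open Polynomial

noncomputable section

variable {R : Type*} [CommRing R] {σ : Type*} [Fintype σ]

/-! ### Kronecker substitution -/


/-- The index of a variable (an arbitrary fixed enumeration of `σ`). -/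
def kidx (s : σ) : ℕ := (Fintype.equivFin σ s : ℕ)

theorem kidx_lt (s : σ) : kidx s < Fintype.card σ := (Fintype.equivFin σ s).isLt

/-- The Kronecker exponent `∑ e_s D^(index s)` of a monomial. -/
def kexp (D : ℕ) (e : σ →₀ ℕ) : ℕ := ∑ s, e s * D ^ kidx s

/-- The Kronecker substitution `X_s ↦ X ^ (D ^ index s)`. -/
def kron (D : ℕ) : MvPolynomial σ R →ₐ[R] R[X] :=
  MvPolynomial.aeval (fun s => (X : R[X]) ^ (D ^ kidx s))

/-- `P` has degree `< D` in each variable. -/
def DegLT (D : ℕ) (P : MvPolynomial σ R) : Prop := ∀ e ∈ P.support, ∀ s, e s < D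

theorem digits_inj (D : ℕ) : ∀ (k : ℕ) (f g : Fin k → ℕ), (∀ i, f i < D) → (∀ i, g i < D) →
    ∑ i, f i * D ^ (i : ℕ) = ∑ i, g i * D ^ (i : ℕ) → f = g
  | 0, f, g, _, _, _ => Subsingleton.elim _ _
  | k + 1, f, g, hf, hg, h => by
      rw [Fin.sum_univ_succ, Fin.sum_univ_succ] at h
      simp only [Fin.val_zero, pow_zero, mul_one, Fin.val_succ, pow_succ] at h
      have hf' : ∑ i : Fin k, f i.succ * (D ^ (i : ℕ) * D)
          = D * ∑ i : Fin k, f i.succ * D ^ (i : ℕ) := by
        rw [Finset.mul_sum]; exact Finset.sum_congr rfl fun i _ => by ring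
      have hg' : ∑ i : Fin k, g i.succ * (D ^ (i : ℕ) * D)
          = D * ∑ i : Fin k, g i.succ * D ^ (i : ℕ) := by
        rw [Finset.mul_sum]; exact Finset.sum_congr rfl fun i _ => by ring
      rw [hf', hg'] at h
      have h0 : f 0 = g 0 := by
        have := congrArg (· % D) h
        simpa [Nat.add_mul_mod_self_left, Nat.mod_eq_of_lt (hf 0), Nat.mod_eq_of_lt (hg 0)]
          using this
      have hD : 0 < D := lt_of_le_of_lt (Nat.zero_le _) (hf 0)
      have hrest : ∑ i : Fin k, f i.succ * D ^ (i : ℕ) = ∑ i : Fin k, g i.succ * D ^ (i : ℕ) := by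
        rw [h0] at h
        exact Nat.eq_of_mul_eq_mul_left hD (Nat.add_left_cancel h)
      have ih := digits_inj D k (fun i => f i.succ) (fun i => g i.succ) (fun i => hf _)
        (fun i => hg _) hrest
      funext i
      exact Fin.cases h0 (fun j => congrFun ih j) i

theorem kexp_eq_sum_fin (D : ℕ) (e : σ →₀ ℕ) :
    kexp D e = ∑ i : Fin (Fintype.card σ), e ((Fintype.equivFin σ).symm i) * D ^ (i : ℕ) := by
  rw [kexp, ← Equiv.sum_comp (Fintype.equivFin σ)]
  refine Finset.sum_congr rfl fun s _ => ?_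
  simp [kidx]

theorem kexp_injOn (D : ℕ) : Set.InjOn (kexp (σ := σ) D) {e | ∀ s, e s < D} := by
  intro e he e' he' h
  rw [kexp_eq_sum_fin, kexp_eq_sum_fin] at h
  have := digits_inj D _ _ _ (fun i => he _) (fun i => he' _) h
  ext s
  have := congrFun this (Fintype.equivFin σ s)
  simpa using this

theorem kexp_le (D : ℕ) {e : σ →₀ ℕ} (he : ∀ s, e s < D) :
    kexp D e ≤ Fintype.card σ * D ^ (Fintype.card σ + 1) := by
  unfold kexp
  have : ∀ s ∈ (Finset.univ : Finset σ), e s * D ^ kidx s ≤ D ^ (Fintype.card σ + 1) := by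
    intro s _
    have hD : 0 < D := lt_of_le_of_lt (Nat.zero_le _) (he s)
    calc e s * D ^ kidx s ≤ D * D ^ Fintype.card σ :=
          Nat.mul_le_mul (he s).le (Nat.pow_le_pow_right hD (kidx_lt s).le)
      _ = D ^ (Fintype.card σ + 1) := by ring
  simpa using Finset.sum_le_card_nsmul _ _ _ this

theorem kron_monomial (D : ℕ) (e : σ →₀ ℕ) (c : R) :
    kron D (MvPolynomial.monomial e c) = Polynomial.monomial (kexp D e) c := by
  rw [kron, MvPolynomial.aeval_monomial, Finsupp.prod_fintype _ _ (fun s => by simp)]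
  simp only [← pow_mul]
  rw [Finset.prod_pow_eq_pow_sum, ← Polynomial.C_mul_X_pow_eq_monomial]
  congr 2
  unfold kexp
  exact Finset.sum_congr rfl fun s _ => by ring

theorem kron_C (D : ℕ) (c : R) : kron (σ := σ) D (MvPolynomial.C c) = Polynomial.C c := by
  rw [kron, MvPolynomial.aeval_C]; rfl

theorem kron_eq_sum (D : ℕ) (P : MvPolynomial σ R) :
    kron D P = ∑ e ∈ P.support, Polynomial.monomial (kexp D e) (P.coeff e) := by
  conv_lhs => rw [P.as_sum]
  rw [map_sum]
  exact Finset.sum_congr rfl fun e _ => kron_monomial D e _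

theorem coeff_kron {D : ℕ} {P : MvPolynomial σ R} (hP : DegLT D P) {e : σ →₀ ℕ}
    (he : ∀ s, e s < D) : (kron D P).coeff (kexp D e) = P.coeff e := by
  classical
  rw [kron_eq_sum, Polynomial.finsetSum_coeff]
  simp only [Polynomial.coeff_monomial]
  have : ∀ e' ∈ P.support, (if kexp D e' = kexp D e then P.coeff e' else 0)
      = if e' = e then P.coeff e' else 0 := by
    intro e' he'
    by_cases h : e' = e
    · simp [h]
    · have : kexp D e' ≠ kexp D e := fun h' => h (kexp_injOn D (hP e' he') he h')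
      simp [h, this]
  rw [Finset.sum_congr rfl this, Finset.sum_ite_eq' P.support e]
  split_ifs with h
  · rfl
  · exact (MvPolynomial.notMem_support_iff.mp h).symm

theorem exists_of_mem_support_kron {D : ℕ} {P : MvPolynomial σ R} {i : ℕ}
    (hi : i ∈ (kron D P).support) : ∃ e ∈ P.support, kexp D e = i := by
  classical
  rw [Polynomial.mem_support_iff, kron_eq_sum, Polynomial.finsetSum_coeff] at hi
  obtain ⟨e, he, h⟩ := Finset.exists_ne_zero_of_sum_ne_zero hi
  refine ⟨e, he, ?_⟩
  by_contra hne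
  exact h (by rw [Polynomial.coeff_monomial, if_neg hne])

theorem kron_ne_zero {D : ℕ} {P : MvPolynomial σ R} (hP : P ≠ 0) (hd : DegLT D P) :
    kron D P ≠ 0 := by
  obtain ⟨e, he⟩ := MvPolynomial.support_nonempty.mpr hP
  intro h
  have := coeff_kron hd (hd e he)
  rw [h, Polynomial.coeff_zero] at this
  exact (MvPolynomial.mem_support_iff.mp he) this.symm

theorem natDegree_kron_le {D : ℕ} {P : MvPolynomial σ R} (hd : DegLT D P) :
    (kron D P).natDegree ≤ Fintype.card σ * D ^ (Fintype.card σ + 1) := by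
  rcases eq_or_ne (kron D P) 0 with h | h
  · simp [h]
  · obtain ⟨e, he, hk⟩ := exists_of_mem_support_kron (Polynomial.natDegree_mem_support_of_nonzero h)
    rw [← hk]
    exact kexp_le D (hd e he)

theorem degLT_of_totalDegree_lt {D : ℕ} {P : MvPolynomial σ R} (h : P.totalDegree < D) :
    DegLT D P := by
  intro e he s
  refine lt_of_le_of_lt ?_ h
  refine le_trans ?_ (MvPolynomial.le_totalDegree he)
  by_cases hs : s ∈ e.support
  · exact Finset.single_le_sum (f := fun i => e i) (fun _ _ => Nat.zero_le _) hs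
  · simp [Finsupp.notMem_support_iff.mp hs]

theorem degLT_of_isHomogeneous {D d : ℕ} {P : MvPolynomial σ R} (h : P.IsHomogeneous d)
    (hd : d < D) : DegLT D P :=
  degLT_of_totalDegree_lt (lt_of_le_of_lt h.totalDegree_le hd)


theorem kron_map {S : Type*} [CommRing S] (φ : R →+* S) (D : ℕ) (P : MvPolynomial σ R) :
    kron D (MvPolynomial.map φ P) = (kron D P).map φ := by
  rw [kron_eq_sum D P, Polynomial.map_sum]
  conv_lhs => rw [P.as_sum]
  rw [map_sum, map_sum]
  refine Finset.sum_congr rfl fun e _ => ?_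
  rw [MvPolynomial.map_monomial, kron_monomial, Polynomial.map_monomial]

theorem DegLT.map {S : Type*} [CommRing S] (φ : R →+* S) {D : ℕ} {P : MvPolynomial σ R}
    (h : DegLT D P) : DegLT D (MvPolynomial.map φ P) := by
  intro e he s
  refine h e ?_ s
  rw [MvPolynomial.mem_support_iff] at he ⊢
  intro h0
  apply he
  rw [MvPolynomial.coeff_map, h0, map_zero]

end

end Fermat.Agent.MW.Height.Form
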