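import Mathlib

/-!
# From "no common zero" to a Nullstellensatz certificate

Mathlib's lower bound for heights of polynomial maps (`Height.mulHeight_eval_ge`) consumes a
*certificate*: homogeneous `q (k, j)` with `∑ j, q (k, j) * p j = X k ^ (M + N)`.
This file produces the certificate from the geometric statement
"the homogeneous polynomials `p j` (over `K`) have no common zero other than `0` over an
algebraically closed extension `L`" (projective Nullstellensatz, from
`MvPolynomial.vanishingIdeal_zeroLocus_eq_radical`).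
-/

set_option autoImplicit false

namespace Fermat.Agent.MW.Height.NullCert

open MvPolynomial

/-- The homogeneous component of degree `M + N` of `c * p`, for `p` homogeneous of degree `N`. -/
theorem homogeneousComponent_mul_of_isHomogeneous {R σ : Type*} [CommSemiring R]
    (c p : MvPolynomial σ R) {N : ℕ} (hp : p.IsHomogeneous N) (M : ℕ) :
    homogeneousComponent (M + N) (c * p) = homogeneousComponent M c * p := by
  classical
  conv_lhs => rw [← sum_homogeneousComponent c, Finset.sum_mul, map_sum]
  have key : ∀ i, homogeneousComponent (M + N) (homogeneousComponent i c * p)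
      = if i = M then homogeneousComponent M c * p else 0 := by
    intro i
    have hmem : homogeneousComponent i c * p ∈ homogeneousSubmodule σ R (i + N) :=
      (homogeneousComponent_isHomogeneous i c).mul hp
    rw [homogeneousComponent_of_mem hmem]
    by_cases h : i = M
    · subst h; simp
    · rw [if_neg h, if_neg]; omega
  simp only [key]
  rw [Finset.sum_ite_eq']
  split_ifs with hM
  · rfl
  · have hlt : c.totalDegree < M := by simpa using hM
    rw [homogeneousComponent_eq_zero _ _ hlt, zero_mul]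

variable {K : Type*} [Field K] {ι ι' : Type*}

/-- **Projective Nullstellensatz certificate.** If the homogeneous polynomials `p j` of degree `N`
over `K` have no common zero except `0` over an algebraically closed extension `L` of `K`,
there are homogeneous `q (k, j)` of a common degree `M` with
`∑ j, q (k, j) * p j = X k ^ (M + N)` — exactly the hypothesis of Mathlib's
`Height.mulHeight_eval_ge` / `Height.logHeight_eval_ge`. -/
theorem exists_certificate [Finite ι] [Fintype ι'] (L : Type*) [Field L] [Algebra K L]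
    [IsAlgClosed L] {N : ℕ} (p : ι' → MvPolynomial ι K) (hp : ∀ j, (p j).IsHomogeneous N)
    (h0 : ∀ x : ι → L, (∀ j, aeval x (p j) = 0) → x = 0) :
    ∃ (M : ℕ) (q : ι × ι' → MvPolynomial ι K), (∀ a, (q a).IsHomogeneous M) ∧
      ∀ k, ∑ j, q (k, j) * p j = X k ^ (M + N) := by
  classical
  set I : Ideal (MvPolynomial ι K) := Ideal.span (Set.range p) with hI
  have hrad : ∀ k : ι, ∃ m : ℕ, (X k : MvPolynomial ι K) ^ m ∈ I := by
    intro k
    have hk : (X k : MvPolynomial ι K) ∈ I.radical := by
      rw [← vanishingIdeal_zeroLocus_eq_radical (K := L) I]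
      intro x hx
      have hx0 : x = 0 := h0 x (fun j => hx (p j) (Ideal.subset_span ⟨j, rfl⟩))
      simp [hx0]
    exact Ideal.mem_radical_iff.mp hk
  choose m hm using hrad
  obtain ⟨M, hM⟩ : ∃ M, ∀ k, m k ≤ M := by
    cases nonempty_fintype ι
    exact ⟨Finset.univ.sup m, fun k => Finset.le_sup (Finset.mem_univ k)⟩
  have hmem : ∀ k, (X k : MvPolynomial ι K) ^ (M + N) ∈ I := by
    intro k
    have hk : M + N = m k + (M + N - m k) := by have := hM k; omega
    rw [hk, pow_add]
    exact I.mul_mem_right _ (hm k)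
  have hc : ∀ k, ∃ c : ι' → MvPolynomial ι K, ∑ j, c j * p j = X k ^ (M + N) := by
    intro k
    exact (Ideal.mem_span_range_iff_exists_fun).mp (hmem k)
  choose c hc using hc
  refine ⟨M, fun a => homogeneousComponent M (c a.1 a.2),
    fun a => homogeneousComponent_isHomogeneous _ _, fun k => ?_⟩
  have h1 := congrArg (homogeneousComponent (M + N)) (hc k)
  rw [map_sum] at h1
  simp only [homogeneousComponent_mul_of_isHomogeneous _ _ (hp _)] at h1
  have hX : ((X k : MvPolynomial ι K) ^ (M + N)).IsHomogeneous (M + N) := by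
    simpa using (isHomogeneous_X K k).pow (M + N)
  rw [h1, homogeneousComponent_eq_self hX]

/-! ### Global consequences (Mathlib heights) -/

section Global

open _root_.Height

variable [AdmissibleAbsValues K]

/-- **Lower height bound for a base-point-free polynomial map.** -/
theorem exists_logHeight_eval_ge [Finite ι] [Fintype ι'] (L : Type*) [Field L] [Algebra K L]
    [IsAlgClosed L] {N : ℕ} (p : ι' → MvPolynomial ι K) (hp : ∀ j, (p j).IsHomogeneous N)
    (h0 : ∀ x : ι → L, (∀ j, aeval x (p j) = 0) → x = 0) :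
    ∃ C : ℝ, ∀ x : ι → K, C + N * logHeight x ≤ logHeight (fun j => (p j).eval x) := by
  obtain ⟨M, q, hq, hcert⟩ := exists_certificate L p hp h0
  obtain ⟨C, hC⟩ := logHeight_eval_ge' (K := K) (M := M) (N := N) hq
  refine ⟨C, fun x => hC p (fun k => ?_)⟩
  have h := congrArg (eval x) (hcert k)
  simpa [eval_sum] using h

/-- **Two-sided height bound for a base-point-free polynomial map**: `h (p x) = N · h x + O(1)`. -/
theorem exists_abs_logHeight_eval_sub_le [Finite ι] [Fintype ι'] (L : Type*) [Field L]
    [Algebra K L] [IsAlgClosed L] {N : ℕ} (p : ι' → MvPolynomial ι K)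
    (hp : ∀ j, (p j).IsHomogeneous N)
    (h0 : ∀ x : ι → L, (∀ j, aeval x (p j) = 0) → x = 0) :
    ∃ C : ℝ, ∀ x : ι → K, |logHeight (fun j => (p j).eval x) - N * logHeight x| ≤ C := by
  obtain ⟨C₁, h₁⟩ := exists_logHeight_eval_ge L p hp h0
  obtain ⟨C₂, h₂⟩ := logHeight_eval_le' (K := K) hp
  refine ⟨max (-C₁) C₂, fun x => abs_le.mpr ⟨?_, ?_⟩⟩
  · have := h₁ x
    have := le_max_left (-C₁) C₂
    linarith
  · have := h₂ x
    have := le_max_right (-C₁) C₂
    linarith

end Global

/-! ### Local consequences at one absolute value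

The same certificate gives a lower bound at every single absolute value (on any field containing
the coefficients, e.g. an absolute value of `ℚ̄` extending a place of `ℚ`), with constant `1` at
the nonarchimedean ones where the `q (k, j)` have integral coefficients. -/

section Local

variable {F : Type*} [Field F]

theorem iSup_abv_pos [Finite ι] (v : AbsoluteValue F ℝ) {x : ι → F} (hx : x ≠ 0) :
    0 < ⨆ k, v (x k) := by
  obtain ⟨k, hk⟩ := Function.ne_iff.mp hx
  exact lt_of_lt_of_le (v.pos hk) (Finite.le_ciSup (fun k => v (x k)) k)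

/-- Local lower bound from a certificate, any absolute value. -/
theorem local_eval_ge (v : AbsoluteValue F ℝ) [Finite ι] [Fintype ι'] {M N : ℕ}
    {q : ι × ι' → MvPolynomial ι F} (hq : ∀ a, (q a).IsHomogeneous M)
    (p : ι' → MvPolynomial ι F) {x : ι → F} (hx : x ≠ 0)
    (h : ∀ k, ∑ j, (q (k, j)).eval x * (p j).eval x = x k ^ (M + N)) :
    (⨆ k, v (x k)) ^ N ≤
      (Fintype.card ι' : ℝ) * (⨆ a, (AddMonoidAlgebra.coeff (q a)).sum fun _ c => v c) *
        ⨆ j, v ((p j).eval x) := by
  classical
  have hB := iSup_abv_pos v hx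
  set B : ℝ := ⨆ k, v (x k) with hBdef
  set A : ℝ := ⨆ a, (AddMonoidAlgebra.coeff (q a)).sum fun _ c => v c with hAdef
  set P : ℝ := ⨆ j, v ((p j).eval x) with hPdef
  have hι : Nonempty ι := by
    obtain ⟨k, _⟩ := Function.ne_iff.mp hx
    exact ⟨k⟩
  have hA0 : 0 ≤ A := Real.iSup_nonneg fun a => Finsupp.sum_nonneg fun _ _ => v.nonneg _
  have hP0 : 0 ≤ P := Real.iSup_nonneg fun j => v.nonneg _
  have hqx : ∀ a, v ((q a).eval x) ≤ A * B ^ M := by
    intro a
    refine (AbsoluteValue.eval_mvPolynomial_le v (hq a) x).trans ?_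
    gcongr
    exact Finite.le_ciSup (fun a => (AddMonoidAlgebra.coeff (q a)).sum fun _ c => v c) a
  have hk : ∀ k, v (x k) ^ (M + N) ≤ (Fintype.card ι' : ℝ) * A * B ^ M * P := by
    intro k
    rw [← v.map_pow, ← h k]
    refine (v.sum_le _ _).trans ?_
    have : ∀ j ∈ (Finset.univ : Finset ι'), v ((q (k, j)).eval x * (p j).eval x) ≤ A * B ^ M * P := by
      intro j _
      rw [v.map_mul]
      exact mul_le_mul (hqx (k, j)) (Finite.le_ciSup (fun j => v ((p j).eval x)) j)
        (v.nonneg _) (by positivity)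
    refine (Finset.sum_le_sum this).trans ?_
    rw [Finset.sum_const, Finset.card_univ, nsmul_eq_mul]
    exact le_of_eq (by ring)
  obtain ⟨k₀, hk₀⟩ := exists_eq_ciSup_of_finite (f := fun k => v (x k))
  have hmain : B ^ (M + N) ≤ (Fintype.card ι' : ℝ) * A * B ^ M * P := by
    have := hk k₀
    rwa [hk₀] at this
  have hBM : 0 < B ^ M := pow_pos hB M
  have : B ^ M * B ^ N ≤ B ^ M * ((Fintype.card ι' : ℝ) * A * P) := by
    calc B ^ M * B ^ N = B ^ (M + N) := (pow_add B M N).symm
      _ ≤ (Fintype.card ι' : ℝ) * A * B ^ M * P := hmain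
      _ = B ^ M * ((Fintype.card ι' : ℝ) * A * P) := by ring
  exact le_of_mul_le_mul_left this hBM

/-- Local lower bound from a certificate, nonarchimedean absolute value. -/
theorem local_eval_ge_of_nonarch {v : AbsoluteValue F ℝ} (hv : IsNonarchimedean v) [Finite ι]
    [Fintype ι'] {M N : ℕ} {q : ι × ι' → MvPolynomial ι F} (hq : ∀ a, (q a).IsHomogeneous M)
    (p : ι' → MvPolynomial ι F) {x : ι → F} (hx : x ≠ 0)
    (h : ∀ k, ∑ j, (q (k, j)).eval x * (p j).eval x = x k ^ (M + N)) :
    (⨆ k, v (x k)) ^ N ≤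
      (⨆ a, ⨆ s : (q a).support, v (coeff s (q a))) * ⨆ j, v ((p j).eval x) := by
  classical
  have hB := iSup_abv_pos v hx
  set B : ℝ := ⨆ k, v (x k) with hBdef
  set A : ℝ := ⨆ a, ⨆ s : (q a).support, v (coeff s (q a)) with hAdef
  set P : ℝ := ⨆ j, v ((p j).eval x) with hPdef
  have hι : Nonempty ι := by
    obtain ⟨k, _⟩ := Function.ne_iff.mp hx
    exact ⟨k⟩
  have hA0 : 0 ≤ A := Real.iSup_nonneg fun a => Real.iSup_nonneg fun s => v.nonneg _
  have hP0 : 0 ≤ P := Real.iSup_nonneg fun j => v.nonneg _
  have hqx : ∀ a, v ((q a).eval x) ≤ A * B ^ M := by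
    intro a
    refine (hv.eval_mvPolynomial_le (hq a) x).trans ?_
    gcongr
    exact Finite.le_ciSup (fun a => ⨆ s : (q a).support, v (coeff s (q a))) a
  have hk : ∀ k, v (x k) ^ (M + N) ≤ A * B ^ M * P := by
    intro k
    rw [← v.map_pow, ← h k]
    refine (hv.apply_sum_univ_le).trans ?_
    refine Real.iSup_le (fun j => ?_) (by positivity)
    rw [v.map_mul]
    exact mul_le_mul (hqx (k, j)) (Finite.le_ciSup (fun j => v ((p j).eval x)) j)
      (v.nonneg _) (by positivity)
  obtain ⟨k₀, hk₀⟩ := exists_eq_ciSup_of_finite (f := fun k => v (x k))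
  have hmain : B ^ (M + N) ≤ A * B ^ M * P := by
    have := hk k₀
    rwa [hk₀] at this
  have hBM : 0 < B ^ M := pow_pos hB M
  have : B ^ M * B ^ N ≤ B ^ M * (A * P) := by
    calc B ^ M * B ^ N = B ^ (M + N) := (pow_add B M N).symm
      _ ≤ A * B ^ M * P := hmain
      _ = B ^ M * (A * P) := by ring
  exact le_of_mul_le_mul_left this hBM

/-- Nonarchimedean place at which the certificate is integral: constant `1`. -/
theorem local_eval_ge_of_nonarch_of_integral {v : AbsoluteValue F ℝ} (hv : IsNonarchimedean v)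
    [Finite ι] [Fintype ι'] {M N : ℕ} {q : ι × ι' → MvPolynomial ι F}
    (hq : ∀ a, (q a).IsHomogeneous M) (hint : ∀ a s, v (coeff s (q a)) ≤ 1)
    (p : ι' → MvPolynomial ι F) {x : ι → F} (hx : x ≠ 0)
    (h : ∀ k, ∑ j, (q (k, j)).eval x * (p j).eval x = x k ^ (M + N)) :
    (⨆ k, v (x k)) ^ N ≤ ⨆ j, v ((p j).eval x) := by
  have h1 := local_eval_ge_of_nonarch hv hq p hx h
  have hP0 : 0 ≤ ⨆ j, v ((p j).eval x) := Real.iSup_nonneg fun j => v.nonneg _
  have hA : (⨆ a, ⨆ s : (q a).support, v (coeff s (q a))) ≤ 1 :=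
    Real.iSup_le (fun a => Real.iSup_le (fun s => hint a s) zero_le_one) zero_le_one
  calc (⨆ k, v (x k)) ^ N ≤ _ := h1
    _ ≤ 1 * ⨆ j, v ((p j).eval x) := by gcongr
    _ = _ := one_mul _

end Local

end Fermat.Agent.MW.Height.NullCert
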