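/-
MW / Height / PolyHeight  (helper9)

Heights of polynomials over a number field `K`, with EXACT additivity.

* `mgHeight p` for `p : K[X]`: Mahler measure at the infinite places, Gauss norm at the
  finite places.  Exactly multiplicative, invariant under nonzero scalars, `≥ 1`, and
  comparable with the Mathlib height of the coefficient vector (constants depending only
  on a degree bound).
* `polyHgt D P` for `P : MvPolynomial σ K` (`σ` a fintype): logarithm of the `mgHeight` of the
  Kronecker substitution `X_s ↦ X ^ (D ^ index s)`.  Exactly additive on nonzero polynomials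
  of degree `< D` in each variable.
-/
import Fermat.Agent.MW.Height.Kronecker

set_option autoImplicit false

namespace Fermat.Agent.MW.Height.Form

open Polynomial NumberField

noncomputable section

variable {K : Type*} [Field K] [NumberField K]

/-! ### The univariate Mahler–Gauss height -/

/-- Mahler–Gauss multiplicative height of a univariate polynomial over a number field:
Mahler measure at the infinite places (with multiplicity), Gauss norm at the finite places. -/
def mgHeight (p : K[X]) : ℝ :=
  (∏ v : InfinitePlace K, ((p.map v.embedding).mahlerMeasure) ^ v.mult) *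
    ∏ᶠ v : FinitePlace K, p.gaussNorm v.val 1

theorem finprod_pos_of_pos {α : Type*} (f : α → ℝ) (h : ∀ i, 0 < f i) : 0 < ∏ᶠ i, f i := by
  by_cases hf : (Function.mulSupport f).Finite
  · rw [finprod_eq_prod_of_mulSupport_subset f (s := hf.toFinset) (by simp)]
    exact Finset.prod_pos fun i _ => h i
  · rw [finprod_of_infinite_mulSupport hf]
    exact one_pos

theorem finitePlace_isNonarchimedean (v : FinitePlace K) :
    IsNonarchimedean (v.val : K → ℝ) := fun x y => FinitePlace.add_le v x y

theorem gaussNorm_eq_one_of_forall {v : AbsoluteValue K ℝ} {p : K[X]} (hp : p ≠ 0)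
    (h : ∀ i ∈ p.support, v (p.coeff i) = 1) : p.gaussNorm v 1 = 1 := by
  have hne : p.support.Nonempty := support_nonempty.mpr hp
  rw [gaussNorm, dif_pos hne]
  apply le_antisymm
  · refine Finset.sup'_le _ _ fun i hi => ?_
    simp [h i hi]
  · obtain ⟨i, hi⟩ := hne
    have := Finset.le_sup' (fun i => v (p.coeff i) * 1 ^ i) hi
    simpa [h i hi] using this

theorem hasFiniteMulSupport_gaussNorm {p : K[X]} (hp : p ≠ 0) :
    Function.HasFiniteMulSupport (fun v : FinitePlace K => p.gaussNorm v.val 1) := by
  classical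
  have h : ∀ i ∈ p.support,
      (Function.mulSupport fun w : FinitePlace K => w (p.coeff i)).Finite :=
    fun i hi => FinitePlace.hasFiniteMulSupport (mem_support_iff.mp hi)
  refine (Set.Finite.biUnion p.support.finite_toSet h).subset ?_
  intro v hv
  by_contra hcon
  apply hv
  apply gaussNorm_eq_one_of_forall hp
  intro i hi
  by_contra h1
  apply hcon
  simp only [Set.mem_iUnion]
  exact ⟨i, hi, h1⟩

theorem gaussNorm_pos {v : AbsoluteValue K ℝ} {p : K[X]} (hp : p ≠ 0) :
    0 < p.gaussNorm v 1 := by
  have h0 : 0 ≤ p.gaussNorm v 1 := gaussNorm_nonneg v p zero_le_one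
  rcases h0.lt_or_eq with h | h
  · exact h
  · exfalso
    have := (gaussNorm_eq_zero_iff v p (fun x hx => by simpa using hx) zero_lt_one).mp h.symm
    exact hp this

theorem map_embedding_ne_zero (v : InfinitePlace K) {p : K[X]} (hp : p ≠ 0) :
    p.map v.embedding ≠ 0 :=
  (Polynomial.map_ne_zero_iff v.embedding.injective).mpr hp

theorem mgHeight_pos {p : K[X]} (hp : p ≠ 0) : 0 < mgHeight p := by
  unfold mgHeight
  apply mul_pos
  · exact Finset.prod_pos fun v _ =>
      pow_pos (mahlerMeasure_pos_of_ne_zero (map_embedding_ne_zero v hp)) _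
  · exact finprod_pos_of_pos _ fun v => gaussNorm_pos hp

theorem mgHeight_zero : mgHeight (0 : K[X]) = 0 := by
  unfold mgHeight
  have : (∏ v : InfinitePlace K, (((0 : K[X]).map v.embedding).mahlerMeasure) ^ v.mult) = 0 := by
    obtain ⟨v⟩ := (inferInstance : Nonempty (InfinitePlace K))
    refine Finset.prod_eq_zero (Finset.mem_univ v) ?_
    simp [InfinitePlace.mult_ne_zero]
  rw [this, zero_mul]

/-- **Exact multiplicativity** of the Mahler–Gauss height. -/
theorem mgHeight_mul {p q : K[X]} (hp : p ≠ 0) (hq : q ≠ 0) :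
    mgHeight (p * q) = mgHeight p * mgHeight q := by
  unfold mgHeight
  have h1 : (∏ v : InfinitePlace K, (((p * q).map v.embedding).mahlerMeasure) ^ v.mult)
      = (∏ v : InfinitePlace K, ((p.map v.embedding).mahlerMeasure) ^ v.mult) *
        ∏ v : InfinitePlace K, ((q.map v.embedding).mahlerMeasure) ^ v.mult := by
    rw [← Finset.prod_mul_distrib]
    refine Finset.prod_congr rfl fun v _ => ?_
    rw [Polynomial.map_mul, mahlerMeasure_mul, mul_pow]
  have h2 : (∏ᶠ v : FinitePlace K, (p * q).gaussNorm v.val 1)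
      = (∏ᶠ v : FinitePlace K, p.gaussNorm v.val 1) * ∏ᶠ v : FinitePlace K, q.gaussNorm v.val 1 := by
    rw [← finprod_mul_distrib (hasFiniteMulSupport_gaussNorm hp) (hasFiniteMulSupport_gaussNorm hq)]
    refine finprod_congr fun v => ?_
    exact gaussNorm_mul (finitePlace_isNonarchimedean v) zero_lt_one p q
  rw [h1, h2]
  ring

theorem mgHeight_C {c : K} (hc : c ≠ 0) : mgHeight (C c : K[X]) = 1 := by
  unfold mgHeight
  have h1 : ∀ v : InfinitePlace K, (((C c : K[X]).map v.embedding).mahlerMeasure) = v c := by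
    intro v
    rw [Polynomial.map_C, mahlerMeasure_const, InfinitePlace.norm_embedding_eq]
  have h2 : ∀ v : FinitePlace K, (C c : K[X]).gaussNorm v.val 1 = v c := by
    intro v
    rw [gaussNorm_C]
    rfl
  simp only [h1, h2]
  exact prod_abs_eq_one hc

theorem mgHeight_C_mul {c : K} (hc : c ≠ 0) (p : K[X]) : mgHeight (C c * p) = mgHeight p := by
  rcases eq_or_ne p 0 with rfl | hp
  · simp
  · rw [mgHeight_mul (C_ne_zero.mpr hc) hp, mgHeight_C hc, one_mul]

/-! ### Comparison with the height of the coefficient vector -/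

theorem iSup_support_eq_gaussNorm (v : AbsoluteValue K ℝ) {p : K[X]} (hp : p ≠ 0) :
    (⨆ i : p.support, v (p.coeff i)) = p.gaussNorm v 1 := by
  have hne : p.support.Nonempty := support_nonempty.mpr hp
  have : Nonempty p.support := hne.coe_sort
  rw [gaussNorm, dif_pos hne]
  apply le_antisymm
  · refine ciSup_le fun i => ?_
    have h := Finset.le_sup' (fun i => v (p.coeff i) * 1 ^ i) i.2
    simp only [one_pow, mul_one] at h
    convert h using 2
    simp
  · refine Finset.sup'_le _ _ fun i hi => ?_
    simpa using le_ciSup (Finite.bddAbove_range (fun i : p.support => v (p.coeff i))) ⟨i, hi⟩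

theorem iSup_support_eq_supNorm (v : InfinitePlace K) {p : K[X]} (hp : p ≠ 0) :
    (⨆ i : p.support, v (p.coeff i)) = (p.map v.embedding).supNorm := by
  have hne : p.support.Nonempty := support_nonempty.mpr hp
  have : Nonempty p.support := hne.coe_sort
  have hc : ∀ i, ‖(p.map v.embedding).coeff i‖ = v (p.coeff i) := fun i => by
    rw [coeff_map, InfinitePlace.norm_embedding_eq]
  apply le_antisymm
  · refine ciSup_le fun i => ?_
    rw [← hc]
    exact le_supNorm _ _
  · obtain ⟨i, hi⟩ := (p.map v.embedding).exists_eq_supNorm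
    rw [hi, hc]
    by_cases his : i ∈ p.support
    · exact le_ciSup (Finite.bddAbove_range (fun i : p.support => v (p.coeff i))) ⟨i, his⟩
    · rw [notMem_support_iff.mp his, map_zero]
      exact Real.iSup_nonneg fun i => apply_nonneg v _

/-- The Mathlib multiplicative height of the coefficient vector of a polynomial. -/
def coeffHeight (p : K[X]) : ℝ := Height.mulHeight (fun i : p.support => p.coeff i)

theorem coeffHeight_eq {p : K[X]} (hp : p ≠ 0) :
    coeffHeight p = (∏ v : InfinitePlace K, ((p.map v.embedding).supNorm) ^ v.mult) *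
      ∏ᶠ v : FinitePlace K, p.gaussNorm v.val 1 := by
  have hne : p.support.Nonempty := support_nonempty.mpr hp
  have hx : (fun i : p.support => p.coeff i) ≠ 0 := by
    obtain ⟨i, hi⟩ := hne
    intro h
    exact (mem_support_iff.mp hi) (congrFun h ⟨i, hi⟩)
  rw [coeffHeight, NumberField.mulHeight_eq hx]
  congr 1
  · refine Finset.prod_congr rfl fun v _ => ?_
    rw [iSup_support_eq_supNorm v hp]
  · refine finprod_congr fun v => ?_
    exact iSup_support_eq_gaussNorm v.val hp

theorem finprod_gaussNorm_pos {p : K[X]} (hp : p ≠ 0) :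
    0 < ∏ᶠ v : FinitePlace K, p.gaussNorm v.val 1 :=
  finprod_pos_of_pos _ fun v => gaussNorm_pos hp

/-- Upper comparison: `mgHeight p ≤ √(n+1)^[K:ℚ] · coeffHeight p` for `natDegree p ≤ n`. -/
theorem mgHeight_le_coeffHeight {p : K[X]} (hp : p ≠ 0) {n : ℕ} (hn : p.natDegree ≤ n) :
    mgHeight p ≤ (√((n : ℝ) + 1)) ^ (Module.finrank ℚ K) * coeffHeight p := by
  rw [coeffHeight_eq hp, mgHeight, ← mul_assoc]
  refine mul_le_mul_of_nonneg_right ?_ (finprod_gaussNorm_pos hp).le
  rw [← InfinitePlace.sum_mult_eq, ← Finset.prod_pow_eq_pow_sum, ← Finset.prod_mul_distrib]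
  refine Finset.prod_le_prod (fun v _ => pow_nonneg (mahlerMeasure_nonneg _) _) fun v _ => ?_
  rw [← mul_pow]
  refine pow_le_pow_left₀ (mahlerMeasure_nonneg _) ?_ _
  refine (mahlerMeasure_le_sqrt_natDegree_add_one_mul_supNorm _).trans ?_
  refine mul_le_mul_of_nonneg_right ?_ (supNorm_nonneg _)
  apply Real.sqrt_le_sqrt
  have : (p.map v.embedding).natDegree ≤ n := (natDegree_map_le).trans hn
  have : ((p.map v.embedding).natDegree : ℝ) ≤ n := by exact_mod_cast this
  linarith

/-- Lower comparison: `coeffHeight p ≤ (2^n)^[K:ℚ] · mgHeight p` for `natDegree p ≤ n`. -/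
theorem coeffHeight_le_mgHeight {p : K[X]} (hp : p ≠ 0) {n : ℕ} (hn : p.natDegree ≤ n) :
    coeffHeight p ≤ ((2 : ℝ) ^ n) ^ (Module.finrank ℚ K) * mgHeight p := by
  rw [coeffHeight_eq hp, mgHeight, ← mul_assoc]
  refine mul_le_mul_of_nonneg_right ?_ (finprod_gaussNorm_pos hp).le
  rw [← InfinitePlace.sum_mult_eq, ← Finset.prod_pow_eq_pow_sum, ← Finset.prod_mul_distrib]
  refine Finset.prod_le_prod (fun v _ => pow_nonneg (supNorm_nonneg _) _) fun v _ => ?_
  rw [← mul_pow]
  refine pow_le_pow_left₀ (supNorm_nonneg _) ?_ _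
  refine (supNorm_le_choose_natDegree_div_two_mul_mahlerMeasure _).trans ?_
  refine mul_le_mul_of_nonneg_right ?_ (mahlerMeasure_nonneg _)
  have h1 : (p.map v.embedding).natDegree ≤ n := (natDegree_map_le).trans hn
  have h2 : ((p.map v.embedding).natDegree.choose ((p.map v.embedding).natDegree / 2) : ℝ)
      ≤ (2 : ℝ) ^ (p.map v.embedding).natDegree := by
    exact_mod_cast Nat.choose_le_two_pow _ _
  exact h2.trans (pow_le_pow_right₀ (by norm_num) h1)

/-- `1 ≤ mgHeight p` for `p ≠ 0` (product formula applied to the leading coefficient). -/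
theorem one_le_mgHeight {p : K[X]} (hp : p ≠ 0) : 1 ≤ mgHeight p := by
  have hlc : p.leadingCoeff ≠ 0 := leadingCoeff_ne_zero.mpr hp
  rw [← prod_abs_eq_one hlc, mgHeight]
  refine mul_le_mul ?_ ?_ (finprod_nonneg fun v => apply_nonneg v _)
    (Finset.prod_nonneg fun v _ => pow_nonneg (mahlerMeasure_nonneg _) _)
  · refine Finset.prod_le_prod (fun v _ => pow_nonneg (apply_nonneg v _) _) fun v _ => ?_
    refine pow_le_pow_left₀ (apply_nonneg v _) ?_ _
    have h := leadingCoeff_le_mahlerMeasure (p.map v.embedding)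
    rwa [leadingCoeff_map, InfinitePlace.norm_embedding_eq] at h
  · refine finprod_le_finprod (FinitePlace.hasFiniteMulSupport hlc) (fun v => apply_nonneg v _)
      (hasFiniteMulSupport_gaussNorm hp) fun v => ?_
    have := le_gaussNorm v.val p zero_le_one p.natDegree
    simp only [one_pow, mul_one, coeff_natDegree] at this
    exact this

section Kronecker

variable {σ : Type*} [Fintype σ]

/-- The Mathlib multiplicative height of the coefficient vector of a multivariate polynomial. -/
def mvCoeffHeight (P : MvPolynomial σ K) : ℝ := Height.mulHeight (fun e : P.support => P.coeff e)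

theorem coeffHeight_kron {D : ℕ} {P : MvPolynomial σ K} (hd : DegLT D P) :
    coeffHeight (kron D P) = mvCoeffHeight P := by
  let f : P.support → (kron D P).support := fun e =>
    ⟨kexp D (e : σ →₀ ℕ), by
      rw [Polynomial.mem_support_iff, coeff_kron hd (e := (e : σ →₀ ℕ)) (hd e e.2)]
      exact MvPolynomial.mem_support_iff.mp e.2⟩
  have hf : Function.Bijective f := by
    constructor
    · intro a b hab
      have : kexp D (a : σ →₀ ℕ) = kexp D (b : σ →₀ ℕ) := congrArg Subtype.val hab
      exact Subtype.ext (kexp_injOn D (hd a a.2) (hd b b.2) this)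
    · intro i
      obtain ⟨e, he, hk⟩ := exists_of_mem_support_kron i.2
      exact ⟨⟨e, he⟩, Subtype.ext hk⟩
  rw [coeffHeight, mvCoeffHeight,
    ← Height.mulHeight_comp_equiv (Equiv.ofBijective f hf) (fun i : (kron D P).support =>
      (kron D P).coeff i)]
  congr 1
  funext e
  exact coeff_kron hd (hd e e.2)

/-! ### The exactly additive height of a multivariate polynomial -/

/-- The logarithmic Mahler–Gauss height of the Kronecker substitution of `P`. Exactly additive
on nonzero polynomials of degree `< D` in each variable. -/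
def polyHgt (D : ℕ) (P : MvPolynomial σ K) : ℝ := Real.log (mgHeight (kron D P))

/-- **Exact additivity.** -/
theorem polyHgt_mul {D : ℕ} {P Q : MvPolynomial σ K} (hP : P ≠ 0) (hQ : Q ≠ 0)
    (hPd : DegLT D P) (hQd : DegLT D Q) :
    polyHgt D (P * Q) = polyHgt D P + polyHgt D Q := by
  unfold polyHgt
  rw [map_mul, mgHeight_mul (kron_ne_zero hP hPd) (kron_ne_zero hQ hQd),
    Real.log_mul (mgHeight_pos (kron_ne_zero hP hPd)).ne' (mgHeight_pos (kron_ne_zero hQ hQd)).ne']

/-- **Exact invariance under nonzero scalars.** -/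
theorem polyHgt_C_mul {D : ℕ} {c : K} (hc : c ≠ 0) (P : MvPolynomial σ K) :
    polyHgt D (MvPolynomial.C c * P) = polyHgt D P := by
  unfold polyHgt
  rw [map_mul, kron_C, mgHeight_C_mul hc]

theorem polyHgt_smul {D : ℕ} {c : K} (hc : c ≠ 0) (P : MvPolynomial σ K) :
    polyHgt D (c • P) = polyHgt D P := by
  rw [MvPolynomial.smul_eq_C_mul, polyHgt_C_mul hc]

theorem polyHgt_nonneg (D : ℕ) (P : MvPolynomial σ K) : 0 ≤ polyHgt D P := by
  unfold polyHgt
  rcases eq_or_ne (kron D P) 0 with h | h
  · simp [h, mgHeight_zero]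
  · exact Real.log_nonneg (one_le_mgHeight h)

/-- The constant in the comparison of `polyHgt` with the Mathlib height of the coefficients. -/
def polyHgtCst (K : Type*) [Field K] [NumberField K] (D k : ℕ) : ℝ :=
  Module.finrank ℚ K * ((k * D ^ (k + 1) : ℕ) + 1)

theorem mvCoeffHeight_pos (P : MvPolynomial σ K) : 0 < mvCoeffHeight P :=
  Height.mulHeight_pos _

/-- **Comparison** with the logarithmic Mathlib height of the coefficient vector. -/
theorem abs_polyHgt_sub_le {D : ℕ} {P : MvPolynomial σ K} (hP : P ≠ 0) (hd : DegLT D P) :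
    |polyHgt D P - Real.log (mvCoeffHeight P)| ≤ polyHgtCst K D (Fintype.card σ) := by
  obtain ⟨n, hn⟩ : ∃ n : ℕ, n = Fintype.card σ * D ^ (Fintype.card σ + 1) := ⟨_, rfl⟩
  obtain ⟨r, hr⟩ : ∃ r : ℕ, r = Module.finrank ℚ K := ⟨_, rfl⟩
  have hk := kron_ne_zero hP hd
  have hdeg := natDegree_kron_le hd
  rw [← hn] at hdeg
  have h1 := mgHeight_le_coeffHeight hk hdeg
  have h2 := coeffHeight_le_mgHeight hk hdeg
  rw [coeffHeight_kron hd, ← hr] at h1 h2
  have hmg := mgHeight_pos hk
  have hch := mvCoeffHeight_pos P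
  have hs : (0 : ℝ) < √((n : ℝ) + 1) := Real.sqrt_pos.mpr (by positivity)
  have hs1 : Real.log (√((n : ℝ) + 1)) ≤ (n : ℝ) + 1 := by
    have h := Real.log_le_sub_one_of_pos hs
    have h' : √((n : ℝ) + 1) ≤ (n : ℝ) + 1 := by
      rw [Real.sqrt_le_left (by positivity)]
      nlinarith [Nat.cast_nonneg (α := ℝ) n]
    linarith
  have hl2 : Real.log 2 ≤ 1 := by
    have := Real.log_le_sub_one_of_pos (by norm_num : (0 : ℝ) < 2)
    linarith
  have e1 : Real.log (mgHeight (kron D P)) ≤ r * ((n : ℝ) + 1) + Real.log (mvCoeffHeight P) := by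
    have := Real.log_le_log hmg h1
    rw [Real.log_mul (pow_pos hs _).ne' hch.ne', Real.log_pow] at this
    have h3 : (r : ℝ) * Real.log (√((n : ℝ) + 1)) ≤ r * ((n : ℝ) + 1) :=
      mul_le_mul_of_nonneg_left hs1 (Nat.cast_nonneg _)
    linarith
  have e2 : Real.log (mvCoeffHeight P) ≤ r * ((n : ℝ) + 1) + Real.log (mgHeight (kron D P)) := by
    have := Real.log_le_log hch h2
    rw [Real.log_mul (pow_pos (pow_pos (by norm_num) _) _).ne' hmg.ne', Real.log_pow,
      Real.log_pow] at this
    have h3 : (r : ℝ) * ((n : ℝ) * Real.log 2) ≤ r * ((n : ℝ) + 1) := by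
      refine mul_le_mul_of_nonneg_left ?_ (Nat.cast_nonneg _)
      nlinarith [Nat.cast_nonneg (α := ℝ) n]
    linarith
  unfold polyHgt polyHgtCst
  rw [abs_le, ← hn, ← hr]
  constructor <;> linarith

end Kronecker

end

end Fermat.Agent.MW.Height.Form
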