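/-
MW / heights (helper63) — **Vandermonde nodes with tame constants** (Mathlib + `MW/HtM/Tame`).

For a family of absolute values `F : AbsFamily K V` and a finite set `T ⊂ K` of nodes:

* `abv_coeff_le` : a polynomial `P` of degree `< #T` has all its coefficients bounded by
  `nodeConst F T v * B` as soon as `|P(a)|_v ≤ B` at the nodes (Lagrange interpolation);
  `tame_nodeConst` : the constant is tame;
* `exists_good_node` : for `d` polynomials of degree `≤ n` and more than `n * d` nodes there is
  ONE node `a` at which every `|P_s(a)|_v` controls all the coefficients of `P_s`, with a tame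
  constant depending only on the nodes (pigeonhole: each polynomial has at most `n` bad nodes);
* `exists_good_node_linear` : the same for families of linear forms `∑ i, a ^ i * c s i`
  ("one of the coordinates `∑ a^i x_i` separates as well as all coordinates together").
-/
import Mathlib
import Fermat.Agent.MW.HtM.Tame

set_option autoImplicit false

noncomputable section

namespace Fermat.Agent.MW.Height.Vandermonde

open Polynomial Fermat.Agent.MW.HtM

variable {K : Type*} [Field K] {V : Type*} (F : AbsFamily K V)

open Classical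

/-- One factor of the node constant: a coefficient of a Lagrange basis polynomial. -/
def nodeFactor (T : Finset K) (ai : K × ℕ) (v : V) : ℝ :=
  max 1 (F.abv v ((Lagrange.basis T id ai.1).coeff ai.2))

theorem tame_nodeFactor (T : Finset K) (ai : K × ℕ) : Tame (nodeFactor F T ai) :=
  F.tame_max_one _

/-- The product of the factors. -/
def nodeProd (T : Finset K) (v : V) : ℝ :=
  ∏ ai ∈ T ×ˢ Finset.range T.card, nodeFactor F T ai v

theorem tame_nodeProd (T : Finset K) : Tame (nodeProd F T) :=
  Tame.prod _ _ fun ai _ => tame_nodeFactor F T ai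

theorem nodeFactor_le_nodeProd (T : Finset K) {a : K} (ha : a ∈ T) {i : ℕ} (hi : i < T.card)
    (v : V) : nodeFactor F T (a, i) v ≤ nodeProd F T v :=
  Tame.le_prod (T ×ˢ Finset.range T.card) (nodeFactor F T)
    (fun ai _ => tame_nodeFactor F T ai)
    (Finset.mem_product.2 ⟨ha, Finset.mem_range.2 hi⟩) v

/-- The tame constant attached to a finite set of interpolation nodes. -/
def nodeConst (T : Finset K) (v : V) : ℝ := F.archN T.card v * nodeProd F T v

theorem tame_nodeConst (T : Finset K) : Tame (nodeConst F T) :=
  (F.tame_archN T.card).mul (tame_nodeProd F T)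

/-- **Coefficients from values at the nodes.** -/
theorem abv_coeff_le (T : Finset K) (v : V) (P : K[X]) (hP : P.degree < T.card) {B : ℝ}
    (hB0 : 0 ≤ B) (hB : ∀ a ∈ T, F.abv v (P.eval a) ≤ B) (i : ℕ) :
    F.abv v (P.coeff i) ≤ nodeConst F T v * B := by
  have hC := tame_nodeConst F T
  by_cases hi : i < T.card
  · have hinj : Set.InjOn (id : K → K) (T : Set K) := Function.injective_id.injOn
    have h1 : P = ∑ a ∈ T, C (P.eval a) * Lagrange.basis T id a := by
      have := Lagrange.eq_interpolate (f := P) hinj hP
      rw [Lagrange.interpolate_apply] at this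
      exact this
    have h2 : P.coeff i = ∑ a ∈ T, P.eval a * (Lagrange.basis T id a).coeff i := by
      conv_lhs => rw [h1]
      rw [finsetSum_coeff]
      exact Finset.sum_congr rfl fun a _ => coeff_C_mul _
    have hE1 : 1 ≤ nodeProd F T v := (tame_nodeProd F T).1 v
    have hterm : ∀ a ∈ T,
        F.abv v (P.eval a * (Lagrange.basis T id a).coeff i) ≤ B * nodeProd F T v := by
      intro a ha
      rw [(F.abv v).map_mul]
      refine mul_le_mul (hB a ha) ?_ ((F.abv v).nonneg _) hB0
      have h3 : F.abv v ((Lagrange.basis T id a).coeff i) ≤ nodeFactor F T (a, i) v :=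
        le_max_right 1 _
      exact h3.trans (nodeFactor_le_nodeProd F T ha hi v)
    rw [h2]
    refine (F.abv_sum_le v T _ (mul_nonneg hB0 (le_trans zero_le_one hE1)) hterm).trans ?_
    unfold nodeConst
    exact le_of_eq (by ring)
  · have : P.coeff i = 0 := by
      refine coeff_eq_zero_of_degree_lt (lt_of_lt_of_le hP ?_)
      exact_mod_cast not_lt.1 hi
    rw [this, map_zero]
    exact mul_nonneg (hC.nonneg v) hB0

/-- The tame constant for "one good node among `T`" and polynomials of degree `≤ n`. -/
def goodConst (n : ℕ) (T : Finset K) (v : V) : ℝ :=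
  ∏ T' ∈ T.powersetCard (n + 1), nodeConst F T' v

theorem tame_goodConst (n : ℕ) (T : Finset K) : Tame (goodConst F n T) :=
  Tame.prod _ _ fun T' _ => tame_nodeConst F T'

/-- **One good node for several polynomials.**  Given `d` polynomials of degree `≤ n` and a set
`T` of more than `n * d` nodes, some node `a ∈ T` satisfies
`|coeff_i P_s|_v ≤ goodConst F n T v * |P_s(a)|_v` for all `s` and `i`. -/
theorem exists_good_node (n d : ℕ) (T : Finset K) (hT : n * d < T.card) (v : V)
    (P : Fin d → K[X]) (hP : ∀ s, (P s).degree < (n + 1 : ℕ)) :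
    ∃ a ∈ T, ∀ s i, F.abv v ((P s).coeff i) ≤ goodConst F n T v * F.abv v ((P s).eval a) := by
  by_contra hcon
  push Not at hcon
  set Bad : Fin d → Finset K := fun s => T.filter fun a =>
    ∃ i, goodConst F n T v * F.abv v ((P s).eval a) < F.abv v ((P s).coeff i) with hBad
  have hcov : T ⊆ (Finset.univ : Finset (Fin d)).biUnion Bad := by
    intro a ha
    obtain ⟨s, i, hsi⟩ := hcon a ha
    exact Finset.mem_biUnion.2 ⟨s, Finset.mem_univ s, Finset.mem_filter.2 ⟨ha, i, hsi⟩⟩
  have hex : ∃ s₀, n < (Bad s₀).card := by
    by_contra hall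
    push Not at hall
    have h1 : T.card ≤ d * n :=
      calc T.card ≤ ((Finset.univ : Finset (Fin d)).biUnion Bad).card := Finset.card_le_card hcov
        _ ≤ ∑ s : Fin d, (Bad s).card := Finset.card_biUnion_le
        _ ≤ ∑ _s : Fin d, n := Finset.sum_le_sum fun s _ => hall s
        _ = d * n := by simp
    rw [mul_comm] at h1
    exact absurd hT (not_lt.2 h1)
  obtain ⟨s₀, hs₀⟩ := hex
  obtain ⟨T', hT'sub, hT'card⟩ := Finset.exists_subset_card_eq (Nat.succ_le_of_lt hs₀)
  have hT'ne : T'.Nonempty := by
    rw [← Finset.card_pos, hT'card]; exact Nat.succ_pos n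
  obtain ⟨a, haT', hmax⟩ := Finset.exists_max_image T' (fun a => F.abv v ((P s₀).eval a)) hT'ne
  obtain ⟨haT, i, hi⟩ := Finset.mem_filter.1 (hT'sub haT')
  have hdeg : (P s₀).degree < T'.card := by rw [hT'card]; exact hP s₀
  have h1 := abv_coeff_le F T' v (P s₀) hdeg ((F.abv v).nonneg _) hmax i
  have hT'mem : T' ∈ T.powersetCard (n + 1) :=
    Finset.mem_powersetCard.2 ⟨fun b hb => (Finset.mem_filter.1 (hT'sub hb)).1, hT'card⟩
  have h2 : nodeConst F T' v ≤ goodConst F n T v :=
    Tame.le_prod (T.powersetCard (n + 1)) (fun T' v => nodeConst F T' v)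
      (fun T' _ => tame_nodeConst F T') hT'mem v
  have h4 : nodeConst F T' v * F.abv v ((P s₀).eval a) ≤
      goodConst F n T v * F.abv v ((P s₀).eval a) :=
    mul_le_mul_of_nonneg_right h2 ((F.abv v).nonneg _)
  linarith

/-- **One good coordinate.**  For `d` vectors `c s : Fin (n + 1) → K` and more than `n * d` nodes,
some node `a` satisfies `|c s i|_v ≤ goodConst F n T v * |∑ i, a ^ i * c s i|_v` for all `s, i`:
the single coordinate `∑ i, a ^ i • x_i` is (tamely) as large as all the coordinates. -/
theorem exists_good_node_linear (n d : ℕ) (T : Finset K) (hT : n * d < T.card) (v : V)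
    (c : Fin d → Fin (n + 1) → K) :
    ∃ a ∈ T, ∀ s i, F.abv v (c s i) ≤
      goodConst F n T v * F.abv v (∑ i : Fin (n + 1), a ^ (i : ℕ) * c s i) := by
  set P : Fin d → K[X] := fun s => ∑ i : Fin (n + 1), C (c s i) * X ^ (i : ℕ) with hPdef
  have hdeg : ∀ s, (P s).degree < (n + 1 : ℕ) := by
    intro s
    refine lt_of_le_of_lt (degree_sum_le _ _) ?_
    rw [Finset.sup_lt_iff (by exact_mod_cast WithBot.bot_lt_coe (n + 1))]
    intro i _
    refine lt_of_le_of_lt (degree_C_mul_X_pow_le _ _) ?_
    exact_mod_cast i.2
  have hcoeff : ∀ s (i : Fin (n + 1)), (P s).coeff (i : ℕ) = c s i := by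
    intro s i
    simp only [hPdef, finsetSum_coeff, coeff_C_mul, coeff_X_pow]
    rw [Finset.sum_eq_single i]
    · simp
    · intro j _ hj
      have : (i : ℕ) ≠ (j : ℕ) := fun e => hj (Fin.ext e.symm)
      simp [this]
    · intro h; exact absurd (Finset.mem_univ i) h
  have heval : ∀ s (a : K), (P s).eval a = ∑ i : Fin (n + 1), a ^ (i : ℕ) * c s i := by
    intro s a
    simp only [hPdef, eval_finsetSum, eval_mul, eval_C, eval_pow, eval_X]
    exact Finset.sum_congr rfl fun i _ => mul_comm _ _
  obtain ⟨a, ha, h⟩ := exists_good_node F n d T hT v P hdeg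
  refine ⟨a, ha, fun s i => ?_⟩
  have := h s (i : ℕ)
  rwa [hcoeff, heval] at this

end Fermat.Agent.MW.Height.Vandermonde
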